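/-
S55-SH : explicit Shapiro lemma in degrees ≤ 2 (definitions).

Setting: a group `G` acting on a set `X` through `a : G →* Equiv.Perm X`, coefficients `A : Rep k G`.
`Coind a A` is the representation on `X → A`, `(g • φ) x = g • φ (g⁻¹ x)`.
Orbit data `Sec a t Hs`: base points `t i`, their stabilisers `Hs i`, and a section `x = s x • t (idx x)`.
`ev₀/ev₁/ev₂`  : (restrict to `Hs i`, evaluate at `t i`)          -- the Shapiro maps
`cs₀/cs₁/cs₂`  : explicit cochain-level sections of the Shapiro maps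
`kap₁/kap₂`    : the homotopies  `cs ∘ ev = id ± d ∘ kap` on cocycles
-/
import Mathlib

set_option autoImplicit false

namespace Fermat.Agent.S55.SH

open groupCohomology CategoryTheory

universe u

variable {k G : Type u} [CommRing k] [Group G] {X : Type u}

/-- The representation of `G` on `X → A`: `(g • φ) x = g • φ (g⁻¹ x)`. -/
def coindRho (a : G →* Equiv.Perm X) (A : Rep k G) : Representation k G (X → A) where
  toFun g :=
    { toFun := fun φ x => A.ρ g (φ ((a g)⁻¹ x))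
      map_add' := fun φ ψ => by ext x; simp
      map_smul' := fun c φ => by ext x; simp }
  map_one' := by ext φ x; simp
  map_mul' g h := by ext φ x; simp [mul_inv_rev]

/-- `Map(X, A)` as an object of `Rep k G`. -/
abbrev Coind (a : G →* Equiv.Perm X) (A : Rep k G) : Rep k G := Rep.of (coindRho a A)

@[simp] lemma coindRho_apply (a : G →* Equiv.Perm X) (A : Rep k G) (g : G) (φ : X → A) (x : X) :
    coindRho a A g φ x = A.ρ g (φ ((a g)⁻¹ x)) := rfl

lemma Coind_ρ_apply (a : G →* Equiv.Perm X) (A : Rep k G) (g : G) (φ : X → A) (x : X) :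
    (Coind a A).ρ g φ x = A.ρ g (φ ((a g)⁻¹ x)) := rfl

/-- right invariance of a 1-cochain under a subgroup (fixed level). -/
def RInv₁ (U : Subgroup G) {Y : Type*} (f : G → Y) : Prop :=
  ∀ g, ∀ u ∈ U, f (g * u) = f g

/-- right invariance of a 2-cochain under a subgroup (fixed level). -/
def RInv₂ (U : Subgroup G) {Y : Type*} (f : G × G → Y) : Prop :=
  ∀ g g', ∀ u ∈ U, ∀ u' ∈ U, f (g * u, g' * u') = f (g, g')

/-- Orbit data for the action `a`: base points `t i` with stabilisers `Hs i`;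
every `x` is `s x • t (idx x)`, and `idx` is constant on orbits. -/
structure Sec (a : G →* Equiv.Perm X) {ι : Type*} (t : ι → X) (Hs : ι → Subgroup G) where
  idx : X → ι
  s : X → G
  spec : ∀ x, a (s x) (t (idx x)) = x
  idx_act : ∀ g x, idx (a g x) = idx x
  mem_iff : ∀ i g, g ∈ Hs i ↔ a g (t i) = t i

/-- normalised orbit data: the base points are their own representatives. -/
structure Sec.Normalized {a : G →* Equiv.Perm X} {ι : Type*} {t : ι → X} {Hs : ι → Subgroup G}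
    (σ : Sec a t Hs) : Prop where
  idx_base : ∀ i, σ.idx (t i) = i
  s_base : ∀ i, σ.s (t i) = 1

section

variable {a : G →* Equiv.Perm X} {ι : Type*} {t : ι → X} {Hs : ι → Subgroup G} (σ : Sec a t Hs)

lemma Sec.eta_mem (x : X) (g' g : G) :
    (σ.s ((a g')⁻¹ x))⁻¹ * g * σ.s ((a (g' * g))⁻¹ x) ∈ Hs (σ.idx x) := by
  rw [σ.mem_iff]
  have h1 : σ.idx ((a (g' * g))⁻¹ x) = σ.idx x := by
    rw [← map_inv]; exact σ.idx_act _ _
  have h2 : σ.idx ((a g')⁻¹ x) = σ.idx x := by
    rw [← map_inv]; exact σ.idx_act _ _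
  have e1 := σ.spec ((a (g' * g))⁻¹ x)
  have e2 := σ.spec ((a g')⁻¹ x)
  rw [h1] at e1
  rw [h2] at e2
  rw [map_mul, map_mul, Equiv.Perm.mul_apply, Equiv.Perm.mul_apply, e1, map_inv,
    Equiv.Perm.inv_eq_iff_eq, e2, map_mul, mul_inv_rev, Equiv.Perm.mul_apply]
  simp

/-- `η(g'⁻¹x, g) = s(g'⁻¹x)⁻¹ g s((g'g)⁻¹x)`, an element of the stabiliser of the base point of `x`. -/
def Sec.eta (x : X) (g' g : G) : Hs (σ.idx x) :=
  ⟨(σ.s ((a g')⁻¹ x))⁻¹ * g * σ.s ((a (g' * g))⁻¹ x), σ.eta_mem x g' g⟩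

variable {A : Rep k G}

/-- Shapiro map in degree 0. -/
def ev₀ (t : ι → X) (φ : X → A) : ι → A := fun i => φ (t i)

/-- Shapiro map in degree 1: restrict to `Hs i`, evaluate at `t i`. -/
def ev₁ (t : ι → X) (Hs : ι → Subgroup G) (f : G → X → A) : ∀ i, Hs i → A :=
  fun i h => f h (t i)

/-- Shapiro map in degree 2: restrict to `Hs i`, evaluate at `t i`. -/
def ev₂ (t : ι → X) (Hs : ι → Subgroup G) (F : G × G → X → A) : ∀ i, Hs i × Hs i → A :=
  fun i p => F (p.1, p.2) (t i)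

/-- cochain section of `ev₀`. -/
def Sec.cs₀ (ψ : ι → A) : X → A := fun x => A.ρ (σ.s x) (ψ (σ.idx x))

/-- cochain section of `ev₁`. -/
def Sec.cs₁ (ψ : ∀ i, Hs i → A) : G → X → A :=
  fun g x => A.ρ (σ.s x) (ψ (σ.idx x) (σ.eta x 1 g))

/-- cochain section of `ev₂`. -/
def Sec.cs₂ (ψ : ∀ i, Hs i × Hs i → A) : G × G → X → A :=
  fun p x => A.ρ (σ.s x) (ψ (σ.idx x) (σ.eta x 1 p.1, σ.eta x p.1 p.2))

/-- homotopy in degree 1. -/
def Sec.kap₁ (f : G → X → A) : X → A := fun x => f (σ.s x) x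

/-- homotopy in degree 2. -/
def Sec.kap₂ (F : G × G → X → A) : G → X → A :=
  fun g x => F (g, σ.s ((a g)⁻¹ x)) x - F (σ.s x, (σ.eta x 1 g : G)) x

end

end Fermat.Agent.S55.SH
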