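/-
S55-SH : abstract level systems and level-constant cochains.
-/
import Fermat.Agent.S55.SH.Defs

set_option autoImplicit false

namespace Fermat.Agent.S55.SH

universe u

variable {G : Type u} [Group G]

/-- `f` is right-invariant under some level `U ∈ 𝒰`. -/
def IsLC₁ (𝒰 : Set (Subgroup G)) {Y : Type*} (f : G → Y) : Prop := ∃ U ∈ 𝒰, RInv₁ U f

/-- `f` is right-invariant (in both variables) under some level `U ∈ 𝒰`. -/
def IsLC₂ (𝒰 : Set (Subgroup G)) {Y : Type*} (f : G × G → Y) : Prop := ∃ U ∈ 𝒰, RInv₂ U f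

/-- A system of levels: filtered, with cofinal normal members. -/
structure LevelSys (𝒰 : Set (Subgroup G)) : Prop where
  inter : ∀ U ∈ 𝒰, ∀ V ∈ 𝒰, ∃ W ∈ 𝒰, W ≤ U ⊓ V
  normal : ∀ U ∈ 𝒰, ∃ W ∈ 𝒰, W.Normal ∧ W ≤ U

/-- pull-back of a system of levels along a homomorphism. -/
def comapLev {Γ : Type*} [Group Γ] (r : Γ →* G) (𝒰 : Set (Subgroup G)) : Set (Subgroup Γ) :=
  (Subgroup.comap r) '' 𝒰

lemma RInv₁.mono {U V : Subgroup G} (h : V ≤ U) {Y : Type*} {f : G → Y} (hf : RInv₁ U f) :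
    RInv₁ V f := fun g u hu => hf g u (h hu)

lemma RInv₂.mono {U V : Subgroup G} (h : V ≤ U) {Y : Type*} {f : G × G → Y} (hf : RInv₂ U f) :
    RInv₂ V f := fun g g' u hu u' hu' => hf g g' u (h hu) u' (h hu')

lemma LevelSys.comap {𝒰 : Set (Subgroup G)} (h : LevelSys 𝒰) {Γ : Type*} [Group Γ] (r : Γ →* G) :
    LevelSys (comapLev r 𝒰) where
  inter := by
    rintro _ ⟨U, hU, rfl⟩ _ ⟨V, hV, rfl⟩
    obtain ⟨W, hW, hle⟩ := h.inter U hU V hV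
    exact ⟨_, ⟨W, hW, rfl⟩, le_inf (Subgroup.comap_mono (hle.trans inf_le_left))
      (Subgroup.comap_mono (hle.trans inf_le_right))⟩
  normal := by
    rintro _ ⟨U, hU, rfl⟩
    obtain ⟨W, hW, hn, hle⟩ := h.normal U hU
    exact ⟨_, ⟨W, hW, rfl⟩, hn.comap r, Subgroup.comap_mono hle⟩

/-- the trivial level system (abstract cohomology: every cochain is level-constant). -/
lemma levelSys_bot : LevelSys ({⊥} : Set (Subgroup G)) where
  inter := by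
    rintro _ rfl _ rfl
    exact ⟨⊥, rfl, bot_le⟩
  normal := by
    rintro _ rfl
    exact ⟨⊥, rfl, inferInstance, le_rfl⟩

lemma isLC₁_bot {Y : Type*} (f : G → Y) : IsLC₁ ({⊥} : Set (Subgroup G)) f :=
  ⟨⊥, rfl, fun g u hu => by rw [Subgroup.mem_bot.1 hu, mul_one]⟩

lemma isLC₂_bot {Y : Type*} (f : G × G → Y) : IsLC₂ ({⊥} : Set (Subgroup G)) f :=
  ⟨⊥, rfl, fun g g' u hu u' hu' => by
    rw [Subgroup.mem_bot.1 hu, Subgroup.mem_bot.1 hu', mul_one, mul_one]⟩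

/-- finitely many levels have a common normal refinement. -/
lemma LevelSys.exists_normal_le_finite {𝒰 : Set (Subgroup G)} (h : LevelSys 𝒰) (hne : 𝒰.Nonempty)
    {J : Type*} [Finite J] (V : J → Subgroup G) (hV : ∀ j, V j ∈ 𝒰) :
    ∃ W ∈ 𝒰, W.Normal ∧ ∀ j, W ≤ V j := by
  classical
  cases nonempty_fintype J
  have key : ∀ s : Finset J, ∃ W ∈ 𝒰, ∀ j ∈ s, W ≤ V j := by
    intro s
    induction s using Finset.induction_on with
    | empty =>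
      obtain ⟨U, hU⟩ := hne
      exact ⟨U, hU, by simp⟩
    | insert j s _ ih =>
      obtain ⟨W, hW, hle⟩ := ih
      obtain ⟨W', hW', hle'⟩ := h.inter W hW (V j) (hV j)
      refine ⟨W', hW', fun i hi => ?_⟩
      rcases Finset.mem_insert.1 hi with rfl | hi
      · exact hle'.trans inf_le_right
      · exact (hle'.trans inf_le_left).trans (hle i hi)
  obtain ⟨W, hW, hle⟩ := key Finset.univ
  obtain ⟨W', hW', hn, hle'⟩ := h.normal W hW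
  exact ⟨W', hW', hn, fun j => hle'.trans (hle j (Finset.mem_univ j))⟩

lemma IsLC₁.add {𝒰 : Set (Subgroup G)} (h : LevelSys 𝒰) {Y : Type*} [Add Y] {f f' : G → Y}
    (hf : IsLC₁ 𝒰 f) (hf' : IsLC₁ 𝒰 f') : IsLC₁ 𝒰 (f + f') := by
  obtain ⟨U, hU, h1⟩ := hf
  obtain ⟨V, hV, h2⟩ := hf'
  obtain ⟨W, hW, hle⟩ := h.inter U hU V hV
  exact ⟨W, hW, fun g u hu => by
    rw [Pi.add_apply, Pi.add_apply, h1 g u (hle hu).1, h2 g u (hle hu).2]⟩

lemma IsLC₂.add {𝒰 : Set (Subgroup G)} (h : LevelSys 𝒰) {Y : Type*} [Add Y] {f f' : G × G → Y}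
    (hf : IsLC₂ 𝒰 f) (hf' : IsLC₂ 𝒰 f') : IsLC₂ 𝒰 (f + f') := by
  obtain ⟨U, hU, h1⟩ := hf
  obtain ⟨V, hV, h2⟩ := hf'
  obtain ⟨W, hW, hle⟩ := h.inter U hU V hV
  exact ⟨W, hW, fun g g' u hu u' hu' => by
    rw [Pi.add_apply, Pi.add_apply, h1 g g' u (hle hu).1 u' (hle hu').1,
      h2 g g' u (hle hu).2 u' (hle hu').2]⟩

lemma IsLC₁.comp {𝒰 : Set (Subgroup G)} {Y Z : Type*} {f : G → Y} (hf : IsLC₁ 𝒰 f) (φ : Y → Z) :
    IsLC₁ 𝒰 (φ ∘ f) := by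
  obtain ⟨U, hU, h⟩ := hf
  exact ⟨U, hU, fun g u hu => by simp only [Function.comp_apply, h g u hu]⟩

lemma IsLC₂.comp {𝒰 : Set (Subgroup G)} {Y Z : Type*} {f : G × G → Y} (hf : IsLC₂ 𝒰 f)
    (φ : Y → Z) : IsLC₂ 𝒰 (φ ∘ f) := by
  obtain ⟨U, hU, h⟩ := hf
  exact ⟨U, hU, fun g g' u hu u' hu' => by simp only [Function.comp_apply, h g g' u hu u' hu']⟩

lemma IsLC₁.precomp {𝒰 : Set (Subgroup G)} {Γ : Type*} [Group Γ] (r : Γ →* G) {Y : Type*}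
    {f : G → Y} (hf : IsLC₁ 𝒰 f) : IsLC₁ (comapLev r 𝒰) (f ∘ r) := by
  obtain ⟨U, hU, h⟩ := hf
  exact ⟨_, ⟨U, hU, rfl⟩, fun g u hu => by
    simp only [Function.comp_apply, map_mul]; exact h _ _ hu⟩

lemma IsLC₂.precomp {𝒰 : Set (Subgroup G)} {Γ : Type*} [Group Γ] (r : Γ →* G) {Y : Type*}
    {f : G × G → Y} (hf : IsLC₂ 𝒰 f) : IsLC₂ (comapLev r 𝒰) (f ∘ Prod.map r r) := by
  obtain ⟨U, hU, h⟩ := hf
  exact ⟨_, ⟨U, hU, rfl⟩, fun g g' u hu u' hu' => by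
    simp only [Function.comp_apply, Prod.map_apply, map_mul]; exact h _ _ _ hu _ hu'⟩

end Fermat.Agent.S55.SH
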