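/-
S55-SH : the two concrete level systems on `G_ℚ` and the dictionary with the frozen predicates.
-/
import Fermat.Agent.S55.SH.Level
import Fermat.Agent.S55.SREF.Defs
import Fermat.Prelude.Def_GroupCohomology_ContinuousUnramified

set_option autoImplicit false

namespace Fermat.Agent.S55.SH

open groupCohomology

abbrev Qb : Type := AlgebraicClosure ℚ
abbrev GQ : Type := Qb ≃ₐ[ℚ] Qb

/-- all open subgroups `G_F`, `F/ℚ` finite. -/
def finLevels : Set (Subgroup GQ) :=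
  {U | ∃ F : IntermediateField ℚ Qb, FiniteDimensional ℚ F ∧ U = F.fixingSubgroup}

/-- the subgroups `G_F`, `F/ℚ` finite and unramified outside `S`. -/
def sLevels (S : Finset Nat.Primes) : Set (Subgroup GQ) :=
  {U | ∃ F : IntermediateField ℚ Qb, F.IsUnramifiedOutside S ∧ U = F.fixingSubgroup}

theorem finLevels_nonempty : finLevels.Nonempty := by
  exact ⟨_, ⊥, inferInstance, rfl⟩

theorem sLevels_nonempty (S : Finset Nat.Primes) : (sLevels S).Nonempty := by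
  exact ⟨_, ⊥, IntermediateField.isUnramifiedOutside_bot S, rfl⟩

/-! ### auxiliary: normality, inertia and conjugation -/

theorem gqLevels_normal_Qb : Normal ℚ Qb :=
  @IsAlgClosure.normal ℚ (AlgebraicClosure ℚ) _ _ (AlgebraicClosure.instAlgebra ℚ) _

theorem gqLevels_fixingSubgroup_normal (F : IntermediateField ℚ Qb)
    (h : ∀ σ : GQ, ∀ x ∈ F, σ x ∈ F) : F.fixingSubgroup.Normal := by
  refine ⟨fun n hn g => ?_⟩
  rw [IntermediateField.mem_fixingSubgroup_iff] at hn ⊢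
  intro x hx
  change g (n (g⁻¹ x)) = x
  rw [hn _ (h g⁻¹ x hx)]
  exact g.apply_symm_apply x

theorem gqLevels_normalClosure_eq (F : IntermediateField ℚ Qb) :
    IntermediateField.normalClosure ℚ F Qb = ⨆ f : GQ, F.map (f : Qb →ₐ[ℚ] Qb) := by
  have := gqLevels_normal_Qb
  exact IntermediateField.normalClosure_def'' F

theorem gqLevels_normalClosure_stable (F : IntermediateField ℚ Qb) (σ : GQ) (x : Qb)
    (hx : x ∈ IntermediateField.normalClosure ℚ F Qb) :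
    σ x ∈ IntermediateField.normalClosure ℚ F Qb := by
  have hn := gqLevels_normal_Qb
  exact IntermediateField.normal_iff_forall_map_le'.1 (normalClosure.normal ℚ F Qb) σ ⟨x, hx, rfl⟩

open scoped Pointwise in
theorem gqLevels_mem_inertiaSubgroupIn_iff (A : ValuationSubring Qb) (σ : GQ) :
    σ ∈ A.inertiaSubgroupIn ℚ ↔ σ • A = A ∧ ∀ x ∈ A, σ x - x ∈ A.nonunits := by
  constructor
  · rintro ⟨g, hg, rfl⟩
    refine ⟨g.2, fun x hx => ?_⟩
    have hg' : g ∈ A.inertiaSubgroup ℚ := hg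
    rw [ValuationSubring.inertiaSubgroup, MonoidHom.mem_ker] at hg'
    have h1 : g • IsLocalRing.residue A ⟨x, hx⟩ = IsLocalRing.residue A ⟨x, hx⟩ :=
      congrArg (fun φ : RingAut (IsLocalRing.ResidueField A) => φ (IsLocalRing.residue A ⟨x, hx⟩)) hg'
    rw [← IsLocalRing.ResidueField.residue_smul, ← sub_eq_zero, ← map_sub,
      IsLocalRing.residue_eq_zero_iff] at h1
    exact ValuationSubring.coe_mem_nonunits_iff.2 h1
  · rintro ⟨hdec, h⟩
    have hdec' : σ ∈ A.decompositionSubgroup ℚ := hdec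
    refine ⟨⟨σ, hdec'⟩, ?_, rfl⟩
    show (⟨σ, hdec'⟩ : A.decompositionSubgroup ℚ) ∈ A.inertiaSubgroup ℚ
    rw [ValuationSubring.inertiaSubgroup, MonoidHom.mem_ker]
    ext x
    show (⟨σ, hdec'⟩ : A.decompositionSubgroup ℚ) • x = x
    obtain ⟨⟨a, ha⟩, rfl⟩ := IsLocalRing.residue_surjective x
    rw [← IsLocalRing.ResidueField.residue_smul, ← sub_eq_zero, ← map_sub,
      IsLocalRing.residue_eq_zero_iff]
    exact ValuationSubring.coe_mem_nonunits_iff.1 (h a ha)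

open scoped Pointwise in
theorem gqLevels_smul_mem_nonunits (A : ValuationSubring Qb) (τ : GQ) {z : Qb}
    (hz : z ∈ A.nonunits) : τ z ∈ (τ • A).nonunits := by
  rw [ValuationSubring.mem_nonunits_iff_or] at hz ⊢
  rcases hz with rfl | hz
  · left; exact map_zero _
  · right
    intro h
    apply hz
    rw [← map_inv₀] at h
    exact (ValuationSubring.smul_mem_pointwise_smul_iff (g := τ) (S := A) (x := z⁻¹)).1 h

open scoped Pointwise in
theorem gqLevels_liesOverPrime_smul (A : ValuationSubring Qb) (τ : GQ) {q : ℕ}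
    (hA : A.LiesOverPrime q) : (τ • A).LiesOverPrime q := by
  have := gqLevels_smul_mem_nonunits A τ hA
  rwa [map_natCast] at this

open scoped Pointwise in
theorem gqLevels_conj_mem_inertia (A : ValuationSubring Qb) (τ σ : GQ)
    (hσ : σ ∈ A.inertiaSubgroupIn ℚ) : τ * σ * τ⁻¹ ∈ (τ • A).inertiaSubgroupIn ℚ := by
  rw [gqLevels_mem_inertiaSubgroupIn_iff] at hσ ⊢
  obtain ⟨h1, h2⟩ := hσ
  refine ⟨?_, fun x hx => ?_⟩
  · rw [mul_smul, mul_smul, inv_smul_smul, h1]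
  · obtain ⟨a, ha, rfl⟩ := (ValuationSubring.mem_smul_pointwise_iff_exists τ x A).1 hx
    have h3 := gqLevels_smul_mem_nonunits A τ (h2 a ha)
    rw [map_sub] at h3
    have e : (τ * σ * τ⁻¹) (τ • a) = τ (σ a) := by
      change τ (σ (τ⁻¹ (τ a))) = τ (σ a)
      congr 2
      exact τ.symm_apply_apply a
    rw [e]
    exact h3

theorem gqLevels_isUnramifiedOutside_normalClosure {S : Finset Nat.Primes}
    {F : IntermediateField ℚ Qb} (hF : F.IsUnramifiedOutside S) :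
    (IntermediateField.normalClosure ℚ F Qb).IsUnramifiedOutside S := by
  have hn := gqLevels_normal_Qb
  have hfd := hF.1
  refine ⟨normalClosure.is_finiteDimensional ℚ F Qb, fun q hq A hA => ?_⟩
  rw [← IntermediateField.le_iff_le, gqLevels_normalClosure_eq]
  refine iSup_le fun τ => ?_
  rintro _ ⟨x, hx, rfl⟩
  rw [IntermediateField.mem_fixedField_iff]
  intro σ hσ
  open scoped Pointwise in
  have h1 := gqLevels_conj_mem_inertia A τ⁻¹ σ hσ
  open scoped Pointwise in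
  have h2 := hF.2 q hq (τ⁻¹ • A) (gqLevels_liesOverPrime_smul A τ⁻¹ hA) h1
  rw [IntermediateField.mem_fixingSubgroup_iff] at h2
  have h3 := h2 x hx
  rw [inv_inv] at h3
  have h4 : τ⁻¹ (σ (τ x)) = x := h3
  have h5 := congrArg τ h4
  rw [show τ (τ⁻¹ (σ (τ x))) = σ (τ x) from τ.apply_symm_apply _] at h5
  exact h5

theorem levelSys_finLevels : LevelSys finLevels := by
  refine ⟨?_, ?_⟩
  · rintro _ ⟨F, hF, rfl⟩ _ ⟨F', hF', rfl⟩
    refine ⟨_, ⟨F ⊔ F', IntermediateField.finiteDimensional_sup F F', rfl⟩, ?_⟩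
    rw [IntermediateField.fixingSubgroup_sup]
  · rintro _ ⟨F, hF, rfl⟩
    exact ⟨_, ⟨IntermediateField.normalClosure ℚ F Qb, normalClosure.is_finiteDimensional ℚ F Qb,
      rfl⟩, gqLevels_fixingSubgroup_normal _ (gqLevels_normalClosure_stable F),
      IntermediateField.fixingSubgroup_antitone (IntermediateField.le_normalClosure F)⟩

/-- needs: the normal closure of a field unramified outside `S` is unramified outside `S`. -/
theorem levelSys_sLevels (S : Finset Nat.Primes) : LevelSys (sLevels S) := by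
  refine ⟨?_, ?_⟩
  · rintro _ ⟨F, hF, rfl⟩ _ ⟨F', hF', rfl⟩
    refine ⟨_, ⟨F ⊔ F', hF.sup hF', rfl⟩, ?_⟩
    rw [IntermediateField.fixingSubgroup_sup]
  · rintro _ ⟨F, hF, rfl⟩
    exact ⟨_, ⟨IntermediateField.normalClosure ℚ F Qb,
      gqLevels_isUnramifiedOutside_normalClosure hF, rfl⟩,
      gqLevels_fixingSubgroup_normal _ (gqLevels_normalClosure_stable F),
      IntermediateField.fixingSubgroup_antitone (IntermediateField.le_normalClosure F)⟩

theorem isLevelConstant₁_iff {Γ : Type} [Group Γ] (r : Γ →* GQ) {Y : Type*} (f : Γ → Y) :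
    IsLevelConstant₁ r f ↔ IsLC₁ (comapLev r finLevels) f := by
  constructor
  · rintro ⟨F, hF, h⟩
    exact ⟨_, ⟨_, ⟨F, hF, rfl⟩, rfl⟩, fun g u hu => h g u hu⟩
  · rintro ⟨_, ⟨_, ⟨F, hF, rfl⟩, rfl⟩, h⟩
    exact ⟨F, hF, fun g s hs => h g s hs⟩

theorem isLevelConstant₂_iff {Γ : Type} [Group Γ] (r : Γ →* GQ) {Y : Type*} (f : Γ × Γ → Y) :
    IsLevelConstant₂ r f ↔ IsLC₂ (comapLev r finLevels) f := by
  constructor
  · rintro ⟨F, hF, h⟩
    exact ⟨_, ⟨_, ⟨F, hF, rfl⟩, rfl⟩, fun g g' u hu u' hu' => h g g' u u' hu hu'⟩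
  · rintro ⟨_, ⟨_, ⟨F, hF, rfl⟩, rfl⟩, h⟩
    exact ⟨F, hF, fun g g' s s' hs hs' => h g g' s hs s' hs'⟩

theorem isLevelConstantS₁_iff (S : Finset Nat.Primes) {Y : Type*} (f : GQ → Y) :
    IsLevelConstantS₁ S f ↔ IsLC₁ (sLevels S) f := by
  constructor
  · rintro ⟨F, hF, h⟩
    exact ⟨_, ⟨F, hF, rfl⟩, fun g u hu => h g u hu⟩
  · rintro ⟨_, ⟨F, hF, rfl⟩, h⟩
    exact ⟨F, hF, fun g s hs => h g s hs⟩

theorem isLevelConstantS₂_iff (S : Finset Nat.Primes) {Y : Type*} (f : GQ × GQ → Y) :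
    IsLevelConstantS₂ S f ↔ IsLC₂ (sLevels S) f := by
  constructor
  · rintro ⟨F, hF, h⟩
    exact ⟨_, ⟨F, hF, rfl⟩, fun g g' u hu u' hu' => h g g' u u' hu hu'⟩
  · rintro ⟨_, ⟨F, hF, rfl⟩, h⟩
    exact ⟨F, hF, fun g g' s s' hs hs' => h g g' s hs s' hs'⟩

theorem isSLevel₁_iff (S : Finset Nat.Primes) (H : Subgroup GQ) {Y : Type*} (f : H → Y) :
    SREF.IsSLevel₁ S H f ↔ IsLC₁ (comapLev H.subtype (sLevels S)) f := by
  constructor
  · rintro ⟨F, hF, h⟩
    exact ⟨_, ⟨_, ⟨F, hF, rfl⟩, rfl⟩, fun g u hu => h g u hu⟩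
  · rintro ⟨_, ⟨_, ⟨F, hF, rfl⟩, rfl⟩, h⟩
    exact ⟨F, hF, fun g s hs => h g s hs⟩

theorem isSLevel₂_iff (S : Finset Nat.Primes) (H : Subgroup GQ) {Y : Type*} (f : H × H → Y) :
    SREF.IsSLevel₂ S H f ↔ IsLC₂ (comapLev H.subtype (sLevels S)) f := by
  constructor
  · rintro ⟨F, hF, h⟩
    exact ⟨_, ⟨_, ⟨F, hF, rfl⟩, rfl⟩, fun g g' u hu u' hu' => h g g' u u' hu hu'⟩
  · rintro ⟨_, ⟨_, ⟨F, hF, rfl⟩, rfl⟩, h⟩
    exact ⟨F, hF, fun g g' s s' hs hs' => h g g' s hs s' hs'⟩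

theorem gqLevels_comap_conj_of_normal {G Γ : Type*} [Group G] [Group Γ] (γ : G) (r : Γ →* G)
    (W : Subgroup G) (hW : W.Normal) :
    W.comap ((MulAut.conj γ).toMonoidHom.comp r) = W.comap r := by
  ext x
  simp only [Subgroup.mem_comap, MonoidHom.comp_apply]
  change γ * r x * γ⁻¹ ∈ W ↔ r x ∈ W
  exact (hW.mem_comm_iff.trans (by rw [inv_mul_cancel_left]))

/-- abstract: conjugating the structure map does not change level-constancy. -/
theorem isLC₁_comapLev_conj {G Γ : Type*} [Group G] [Group Γ] {𝒰 : Set (Subgroup G)}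
    (h𝒰 : LevelSys 𝒰) (γ : G) (r : Γ →* G) {Y : Type*} (f : Γ → Y) :
    IsLC₁ (comapLev ((MulAut.conj γ).toMonoidHom.comp r) 𝒰) f ↔ IsLC₁ (comapLev r 𝒰) f := by
  constructor
  · rintro ⟨_, ⟨U, hU, rfl⟩, h⟩
    obtain ⟨W, hW, hn, hle⟩ := h𝒰.normal U hU
    refine ⟨_, ⟨W, hW, rfl⟩, ?_⟩
    rw [← gqLevels_comap_conj_of_normal γ r W hn]
    exact h.mono (Subgroup.comap_mono hle)
  · rintro ⟨_, ⟨U, hU, rfl⟩, h⟩
    obtain ⟨W, hW, hn, hle⟩ := h𝒰.normal U hU
    refine ⟨_, ⟨W, hW, rfl⟩, ?_⟩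
    rw [gqLevels_comap_conj_of_normal γ r W hn]
    exact h.mono (Subgroup.comap_mono hle)

theorem isLC₂_comapLev_conj {G Γ : Type*} [Group G] [Group Γ] {𝒰 : Set (Subgroup G)}
    (h𝒰 : LevelSys 𝒰) (γ : G) (r : Γ →* G) {Y : Type*} (f : Γ × Γ → Y) :
    IsLC₂ (comapLev ((MulAut.conj γ).toMonoidHom.comp r) 𝒰) f ↔ IsLC₂ (comapLev r 𝒰) f := by
  constructor
  · rintro ⟨_, ⟨U, hU, rfl⟩, h⟩
    obtain ⟨W, hW, hn, hle⟩ := h𝒰.normal U hU
    refine ⟨_, ⟨W, hW, rfl⟩, ?_⟩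
    rw [← gqLevels_comap_conj_of_normal γ r W hn]
    exact h.mono (Subgroup.comap_mono hle)
  · rintro ⟨_, ⟨U, hU, rfl⟩, h⟩
    obtain ⟨W, hW, hn, hle⟩ := h𝒰.normal U hU
    refine ⟨_, ⟨W, hW, rfl⟩, ?_⟩
    rw [gqLevels_comap_conj_of_normal γ r W hn]
    exact h.mono (Subgroup.comap_mono hle)

end Fermat.Agent.S55.SH
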