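/-
S55-SH : explicit Shapiro lemma in degrees ≤ 2 (cochain identities).
-/
import Fermat.Agent.S55.SH.Defs
set_option autoImplicit false
namespace Fermat.Agent.S55.SH
open groupCohomology CategoryTheory
universe u
variable {k G : Type u} [CommRing k] [Group G] {X : Type u}
variable {a : G →* Equiv.Perm X} {ι : Type*} {t : ι → X} {Hs : ι → Subgroup G} (σ : Sec a t Hs)
variable {A : Rep k G}

lemma Sec.coe_eta (x : X) (g' g : G) :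
    (σ.eta x g' g : G) = (σ.s ((a g')⁻¹ x))⁻¹ * g * σ.s ((a (g' * g))⁻¹ x) := rfl

lemma Sec.eta_mul (x : X) (g' g h : G) :
    σ.eta x g' g * σ.eta x (g' * g) h = σ.eta x g' (g * h) := by
  apply Subtype.ext
  simp only [Subgroup.coe_mul, Sec.coe_eta, mul_assoc]
  group

lemma Sec.s_mul_eta (x : X) (g : G) :
    σ.s x * (σ.eta x 1 g : G) = g * σ.s ((a g)⁻¹ x) := by
  simp [Sec.coe_eta, mul_assoc]

lemma Sec.idx_inv (g : G) (x : X) : σ.idx ((a g)⁻¹ x) = σ.idx x := by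
  rw [← map_inv]; exact σ.idx_act _ _

lemma congr_fam₁ {Y : Type*} (ψ : ∀ i, Hs i → Y) {i j : ι} (h : i = j) (z : Hs i) (z' : Hs j)
    (hz : (z : G) = z') : ψ i z = ψ j z' := by
  subst h
  exact congrArg _ (Subtype.ext hz)

lemma congr_fam₂ {Y : Type*} (ψ : ∀ i, Hs i × Hs i → Y) {i j : ι} (h : i = j) (z w : Hs i)
    (z' w' : Hs j) (hz : (z : G) = z') (hw : (w : G) = w') : ψ i (z, w) = ψ j (z', w') := by
  subst h
  rw [Subtype.ext hz, Subtype.ext hw]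

lemma Sec.coe_eta_shift (x : X) (g g' h : G) :
    (σ.eta ((a g)⁻¹ x) g' h : G) = σ.eta x (g * g') h := by
  simp only [Sec.coe_eta, map_mul, mul_inv_rev, Equiv.Perm.mul_apply]

noncomputable def dFam₀₁ (Hs : ι → Subgroup G) (A : Rep k G) (ψ : ι → A) : ∀ i, Hs i → A :=
  fun i => (d₀₁ (Rep.res (Hs i).subtype A)).hom (ψ i)

noncomputable def dFam₁₂ (Hs : ι → Subgroup G) (A : Rep k G) (ψ : ∀ i, Hs i → A) :
    ∀ i, Hs i × Hs i → A :=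
  fun i => (d₁₂ (Rep.res (Hs i).subtype A)).hom (ψ i)

lemma dFam₀₁_apply (ψ : ι → A) (i : ι) (h : Hs i) :
    dFam₀₁ Hs A ψ i h = A.ρ h (ψ i) - ψ i := rfl

lemma dFam₁₂_apply (ψ : ∀ i, Hs i → A) (i : ι) (h h' : Hs i) :
    dFam₁₂ Hs A ψ i (h, h') = A.ρ h (ψ i h') - ψ i (h * h') + ψ i h := rfl

lemma Sec.ρ_s_ρ_eta (x : X) (g : G) (v : A) :
    A.ρ (σ.s x) (A.ρ (σ.eta x 1 g : G) v) = A.ρ g (A.ρ (σ.s ((a g)⁻¹ x)) v) := by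
  rw [← Module.End.mul_apply, ← map_mul, σ.s_mul_eta, map_mul, Module.End.mul_apply]

lemma Sec.eta_one_mul (x : X) (g h : G) :
    σ.eta x 1 g * σ.eta x g h = σ.eta x 1 (g * h) := by
  have := σ.eta_mul x 1 g h
  rwa [one_mul] at this

theorem Sec.d₀₁_cs₀ (ψ : ι → A) :
    (d₀₁ (Coind a A)).hom (σ.cs₀ ψ) = σ.cs₁ (dFam₀₁ Hs A ψ) := by
  ext g x
  rw [d₀₁_hom_apply]
  simp only [Pi.sub_apply, coindRho_apply, Sec.cs₀, Sec.cs₁, dFam₀₁_apply, map_sub, σ.ρ_s_ρ_eta,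
    σ.idx_inv]

theorem Sec.d₁₂_cs₁ (ψ : ∀ i, Hs i → A) :
    (d₁₂ (Coind a A)).hom (σ.cs₁ ψ) = σ.cs₂ (dFam₁₂ Hs A ψ) := by
  ext ⟨g, h⟩ x
  rw [d₁₂_hom_apply]
  simp only [Pi.sub_apply, Pi.add_apply, coindRho_apply, Sec.cs₁, Sec.cs₂, dFam₁₂_apply, map_sub,
    map_add, σ.ρ_s_ρ_eta, σ.eta_one_mul]
  rw [congr_fam₁ ψ (σ.idx_inv g x) (σ.eta ((a g)⁻¹ x) 1 h) (σ.eta x g h)
    (by rw [σ.coe_eta_shift, mul_one])]

theorem Sec.cs₁_mem_cocycles₁ (ψ : ∀ i, Hs i → A)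
    (hψ : ∀ i, ψ i ∈ cocycles₁ (Rep.res (Hs i).subtype A)) :
    σ.cs₁ ψ ∈ cocycles₁ (Coind a A) := by
  have h0 : dFam₁₂ Hs A ψ = 0 := by
    funext i
    exact hψ i
  change (d₁₂ (Coind a A)).hom (σ.cs₁ ψ) = 0
  rw [σ.d₁₂_cs₁, h0]
  ext p x
  simp [Sec.cs₂]
  rfl

theorem Sec.cs₂_mem_cocycles₂ (ψ : ∀ i, Hs i × Hs i → A)
    (hψ : ∀ i, ψ i ∈ cocycles₂ (Rep.res (Hs i).subtype A)) :
    σ.cs₂ ψ ∈ cocycles₂ (Coind a A) := by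
  rw [mem_cocycles₂_iff]
  intro g h j
  ext x
  have h1 := (mem_cocycles₂_iff _).1 (hψ (σ.idx x)) (σ.eta x 1 g) (σ.eta x g h) (σ.eta x (g * h) j)
  rw [σ.eta_one_mul, σ.eta_mul] at h1
  have h2 := congrArg (A.ρ (σ.s x)) h1
  simp only [map_add] at h2
  simp only [Pi.add_apply, coindRho_apply, Sec.cs₂]
  rw [h2]
  congr 1
  rw [congr_fam₂ ψ (σ.idx_inv g x) (σ.eta ((a g)⁻¹ x) 1 h) (σ.eta ((a g)⁻¹ x) h j) (σ.eta x g h)
    (σ.eta x (g * h) j) (by rw [σ.coe_eta_shift, mul_one]) (by rw [σ.coe_eta_shift])]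
  exact σ.ρ_s_ρ_eta x g _

theorem Sec.cs₀_ev₀ (φ : X → A) (hφ : ∀ g, (Coind a A).ρ g φ = φ) :
    σ.cs₀ (ev₀ t φ) = φ := by
  ext x
  have := congrFun (hφ (σ.s x)) x
  rw [Coind_ρ_apply] at this
  rw [← this]
  simp only [Sec.cs₀, ev₀]
  congr 2
  rw [Equiv.Perm.eq_inv_iff_eq, σ.spec]

theorem Sec.cs₁_ev₁ (f : G → X → A) (hf : f ∈ cocycles₁ (Coind a A)) :
    σ.cs₁ (ev₁ t Hs f) = f + (d₀₁ (Coind a A)).hom (σ.kap₁ f) := by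
  rw [mem_cocycles₁_iff] at hf
  ext g x
  rw [Pi.add_apply, d₀₁_hom_apply]
  simp only [Pi.add_apply, Pi.sub_apply, coindRho_apply, Sec.cs₁, ev₁, Sec.kap₁]
  have h1 := congrFun (hf (σ.s x) (σ.eta x 1 g)) x
  have h2 := congrFun (hf g (σ.s ((a g)⁻¹ x))) x
  rw [σ.s_mul_eta] at h1
  simp only [Pi.add_apply, coindRho_apply] at h1 h2
  have h3 : (a (σ.s x))⁻¹ x = t (σ.idx x) := by
    rw [Equiv.Perm.inv_eq_iff_eq, σ.spec]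
  rw [h3] at h1
  rw [h2] at h1
  rw [eq_sub_of_add_eq h1.symm]
  abel

theorem Sec.cs₂_ev₂ (F : G × G → X → A) (hF : F ∈ cocycles₂ (Coind a A)) :
    σ.cs₂ (ev₂ t Hs F) = F - (d₁₂ (Coind a A)).hom (σ.kap₂ F) := by
  rw [mem_cocycles₂_iff] at hF
  ext ⟨g, h⟩ x
  rw [Pi.sub_apply, d₁₂_hom_apply]
  simp only [Pi.add_apply, Pi.sub_apply, coindRho_apply, Sec.cs₂, ev₂, Sec.kap₂]
  have h3 : (a (σ.s x))⁻¹ x = t (σ.idx x) := by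
    rw [Equiv.Perm.inv_eq_iff_eq, σ.spec]
  have e1 := congrFun (hF (σ.s x) (σ.eta x 1 g) (σ.eta x g h)) x
  have e2 := congrFun (hF g (σ.s ((a g)⁻¹ x)) (σ.eta x g h)) x
  have e3 := congrFun (hF g h (σ.s ((a (g * h))⁻¹ x))) x
  simp only [Pi.add_apply, coindRho_apply, h3] at e1 e2 e3
  have c1 : σ.s ((a g)⁻¹ x) * (σ.eta x g h : G) = h * σ.s ((a (g * h))⁻¹ x) := by
    simp [Sec.coe_eta, mul_assoc]
  have c2 : (σ.eta x 1 g : G) * (σ.eta x g h : G) = (σ.eta x 1 (g * h) : G) := by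
    rw [← Subgroup.coe_mul, σ.eta_one_mul]
  have c3 : (a h)⁻¹ ((a g)⁻¹ x) = (a (g * h))⁻¹ x := by
    simp [mul_inv_rev]
  have c4 : (σ.eta ((a g)⁻¹ x) 1 h : G) = σ.eta x g h := by
    rw [σ.coe_eta_shift, mul_one]
  rw [σ.s_mul_eta, c2] at e1
  rw [c1] at e2
  rw [c3, c4, map_sub]
  have e1' := eq_sub_of_add_eq e1.symm
  have e2' := eq_sub_of_add_eq e2
  have e3' := eq_sub_of_add_eq' e3.symm
  rw [e1', e2', e3']
  abel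

end Fermat.Agent.S55.SH
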