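/-
S55-SH : explicit Shapiro lemma in degrees ≤ 2 (ev/cs compatibilities, fixed levels, injectivity).
-/
import Fermat.Agent.S55.SH.Core
set_option autoImplicit false
namespace Fermat.Agent.S55.SH
open groupCohomology CategoryTheory
universe u
variable {k G : Type u} [CommRing k] [Group G] {X : Type u}
variable {a : G →* Equiv.Perm X} {ι : Type*} {t : ι → X} {Hs : ι → Subgroup G} (σ : Sec a t Hs)
variable {A : Rep k G}

/-! ### `ev` commutes with `d` -/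

include σ in
lemma Sec.inv_base (i : ι) (h : Hs i) : (a (h : G))⁻¹ (t i) = t i := by
  rw [Equiv.Perm.inv_eq_iff_eq, (σ.mem_iff i h).1 h.2]

include σ in
theorem Sec.ev₁_d₀₁ (φ : X → A) :
    ev₁ t Hs ((d₀₁ (Coind a A)).hom φ) = dFam₀₁ Hs A (ev₀ t φ) := by
  funext i h
  rw [dFam₀₁_apply]
  simp only [ev₁, ev₀]
  rw [d₀₁_hom_apply]
  simp only [Pi.sub_apply, coindRho_apply, σ.inv_base]

include σ in
theorem Sec.ev₂_d₁₂ (f : G → X → A) :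
    ev₂ t Hs ((d₁₂ (Coind a A)).hom f) = dFam₁₂ Hs A (ev₁ t Hs f) := by
  funext i ⟨h, h'⟩
  rw [dFam₁₂_apply]
  simp only [ev₂, ev₁, d₁₂_hom_apply, Pi.sub_apply, Pi.add_apply, coindRho_apply, σ.inv_base,
    Subgroup.coe_mul]

include σ in
theorem Sec.ev₁_mem_cocycles₁ (f : G → X → A) (hf : f ∈ cocycles₁ (Coind a A)) (i : ι) :
    ev₁ t Hs f i ∈ cocycles₁ (Rep.res (Hs i).subtype A) := by
  have h1 : (d₁₂ (Coind a A)).hom f = 0 := hf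
  have h2 := σ.ev₂_d₁₂ f
  rw [h1] at h2
  exact (congrFun h2 i).symm

include σ in
theorem Sec.ev₂_mem_cocycles₂ (F : G × G → X → A) (hF : F ∈ cocycles₂ (Coind a A)) (i : ι) :
    ev₂ t Hs F i ∈ cocycles₂ (Rep.res (Hs i).subtype A) := by
  rw [mem_cocycles₂_iff] at hF ⊢
  intro g h j
  have := congrFun (hF g h j) (t i)
  simp only [Pi.add_apply, coindRho_apply, σ.inv_base] at this
  exact this

/-! ### normalised sections: `ev ∘ cs = id` -/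

variable {σ}

lemma Sec.Normalized.coe_eta_base (hσ : σ.Normalized) (i : ι) (h' h : Hs i) :
    (σ.eta (t i) h' h : G) = h := by
  have h1 : (a (h' : G))⁻¹ (t i) = t i := σ.inv_base i h'
  have h2 : (a ((h' : G) * h))⁻¹ (t i) = t i := σ.inv_base i (h' * h)
  rw [Sec.coe_eta, h1, h2, hσ.s_base]
  simp

theorem Sec.Normalized.ev₀_cs₀ (hσ : σ.Normalized) (ψ : ι → A) : ev₀ t (σ.cs₀ ψ) = ψ := by
  funext i
  simp [ev₀, Sec.cs₀, hσ.s_base, hσ.idx_base]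

theorem Sec.Normalized.ev₁_cs₁ (hσ : σ.Normalized) (ψ : ∀ i, Hs i → A) :
    ev₁ t Hs (σ.cs₁ ψ) = ψ := by
  funext i h
  simp only [ev₁, Sec.cs₁, hσ.s_base, map_one, Module.End.one_apply]
  exact congr_fam₁ ψ (hσ.idx_base i) _ _ (by simpa using hσ.coe_eta_base i 1 h)

theorem Sec.Normalized.ev₂_cs₂ (hσ : σ.Normalized) (ψ : ∀ i, Hs i × Hs i → A) :
    ev₂ t Hs (σ.cs₂ ψ) = ψ := by
  funext i ⟨h, h'⟩
  simp only [ev₂, Sec.cs₂, hσ.s_base, map_one, Module.End.one_apply]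
  exact congr_fam₂ ψ (hσ.idx_base i) _ _ _ _ (by simpa using hσ.coe_eta_base i 1 h)
    (hσ.coe_eta_base i h h')

/-! ### fixed levels -/

variable (σ)

lemma act_mul_of_trivial {U : Subgroup G} (hU : ∀ u ∈ U, a u = 1) (g u : G) (hu : u ∈ U) :
    a (g * u) = a g := by
  rw [map_mul, hU u hu, mul_one]

/-- `η(x, g u) ∈ η(x, g) U`. -/
lemma Sec.eta_mul_right {U : Subgroup G} [U.Normal] (hU : ∀ u ∈ U, a u = 1) (x : X) (g' g u : G)
    (hu : u ∈ U) :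
    ∃ v : Hs (σ.idx x), (v : G) ∈ U ∧ σ.eta x g' (g * u) = σ.eta x g' g * v := by
  have hm : (σ.s ((a (g' * g))⁻¹ x))⁻¹ * u * σ.s ((a (g' * g))⁻¹ x) ∈ U := by
    have := ‹U.Normal›.conj_mem u hu (σ.s ((a (g' * g))⁻¹ x))⁻¹
    simpa using this
  have hmem : (σ.s ((a (g' * g))⁻¹ x))⁻¹ * u * σ.s ((a (g' * g))⁻¹ x) ∈ Hs (σ.idx x) := by
    rw [σ.mem_iff, hU _ hm]; rfl
  refine ⟨⟨_, hmem⟩, hm, ?_⟩
  apply Subtype.ext
  have e : a (g' * (g * u)) = a (g' * g) := by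
    rw [← mul_assoc]; exact act_mul_of_trivial hU _ _ hu
  simp only [Sec.coe_eta, Subgroup.coe_mul, e]
  group

lemma Sec.eta_left_mul_right {U : Subgroup G} (hU : ∀ u ∈ U, a u = 1) (x : X) (g' g u : G)
    (hu : u ∈ U) : σ.eta x (g' * u) g = σ.eta x g' g := by
  apply Subtype.ext
  have e1 : a (g' * u) = a g' := act_mul_of_trivial hU _ _ hu
  have e2 : a (g' * u * g) = a (g' * g) := by
    rw [map_mul, e1, map_mul]
  simp only [Sec.coe_eta, e1, e2]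

theorem Sec.rinv_cs₁ {U : Subgroup G} [U.Normal] (hU : ∀ u ∈ U, a u = 1) (ψ : ∀ i, Hs i → A)
    (hψ : ∀ x, RInv₁ (U.subgroupOf (Hs (σ.idx x))) (ψ (σ.idx x))) : RInv₁ U (σ.cs₁ ψ) := by
  intro g u hu
  funext x
  obtain ⟨v, hv, e⟩ := σ.eta_mul_right hU x 1 g u hu
  simp only [Sec.cs₁, e]
  rw [hψ _ _ v (Subgroup.mem_subgroupOf.2 hv)]

theorem Sec.rinv_cs₂ {U : Subgroup G} [U.Normal] (hU : ∀ u ∈ U, a u = 1)
    (ψ : ∀ i, Hs i × Hs i → A)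
    (hψ : ∀ x, RInv₂ (U.subgroupOf (Hs (σ.idx x))) (ψ (σ.idx x))) : RInv₂ U (σ.cs₂ ψ) := by
  intro g g' u hu u' hu'
  funext x
  obtain ⟨v, hv, e⟩ := σ.eta_mul_right hU x 1 g u hu
  obtain ⟨v', hv', e'⟩ := σ.eta_mul_right hU x g g' u' hu'
  simp only [Sec.cs₂, e, σ.eta_left_mul_right hU x g _ u hu, e']
  rw [hψ _ _ _ v (Subgroup.mem_subgroupOf.2 hv) v' (Subgroup.mem_subgroupOf.2 hv')]

theorem Sec.rinv_kap₂ {U : Subgroup G} [U.Normal] (hU : ∀ u ∈ U, a u = 1)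
    (F : G × G → X → A) (hF : RInv₂ U F) : RInv₁ U (σ.kap₂ F) := by
  intro g u hu
  funext x
  obtain ⟨v, hv, e⟩ := σ.eta_mul_right hU x 1 g u hu
  simp only [Sec.kap₂, e, act_mul_of_trivial hU g u hu, Subgroup.coe_mul]
  have h1 := hF g (σ.s ((a g)⁻¹ x)) u hu 1 U.one_mem
  have h2 := hF (σ.s x) (σ.eta x 1 g) 1 U.one_mem v hv
  rw [mul_one] at h1 h2
  rw [h1, h2]

theorem rinv_ev₁ {U : Subgroup G} (f : G → X → A) (hf : RInv₁ U f) (i : ι) :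
    RInv₁ (U.subgroupOf (Hs i)) (ev₁ t Hs f i) := by
  intro h u hu
  simp only [ev₁, Subgroup.coe_mul]
  rw [hf _ _ (Subgroup.mem_subgroupOf.1 hu)]

theorem rinv_ev₂ {U : Subgroup G} (F : G × G → X → A) (hF : RInv₂ U F) (i : ι) :
    RInv₂ (U.subgroupOf (Hs i)) (ev₂ t Hs F i) := by
  intro h h' u hu u' hu'
  simp only [ev₂, Subgroup.coe_mul]
  rw [hF _ _ _ (Subgroup.mem_subgroupOf.1 hu) _ (Subgroup.mem_subgroupOf.1 hu')]

/-! ### main theorems at a fixed level -/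

include σ in
/-- **Shapiro, injectivity, degree 1.** -/
theorem Sec.shapiro_inj₁ (f : G → X → A) (hf : f ∈ cocycles₁ (Coind a A))
    (c : ι → A) (hc : ev₁ t Hs f = dFam₀₁ Hs A c) :
    ∃ φ : X → A, (d₀₁ (Coind a A)).hom φ = f := by
  refine ⟨σ.cs₀ c - σ.kap₁ f, ?_⟩
  rw [map_sub, σ.d₀₁_cs₀, ← hc, σ.cs₁_ev₁ f hf]
  exact add_sub_cancel_right _ _

include σ in
/-- **Shapiro, injectivity, degree 2, at level `U`.** -/
theorem Sec.shapiro_inj₂ {U : Subgroup G} [U.Normal] (hU : ∀ u ∈ U, a u = 1)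
    (F : G × G → X → A) (hF : F ∈ cocycles₂ (Coind a A)) (hFU : RInv₂ U F)
    (y : ∀ i, Hs i → A) (hyU : ∀ x, RInv₁ (U.subgroupOf (Hs (σ.idx x))) (y (σ.idx x)))
    (hy : ev₂ t Hs F = dFam₁₂ Hs A y) :
    ∃ z : G → X → A, RInv₁ U z ∧ (d₁₂ (Coind a A)).hom z = F := by
  refine ⟨σ.cs₁ y + σ.kap₂ F, ?_, ?_⟩
  · intro g u hu
    rw [Pi.add_apply, Pi.add_apply, σ.rinv_cs₁ hU y hyU g u hu, σ.rinv_kap₂ hU F hFU g u hu]
  · rw [map_add, σ.d₁₂_cs₁, ← hy, σ.cs₂_ev₂ F hF, sub_add_cancel]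

end Fermat.Agent.S55.SH
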