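/-
S55-SH : restriction along `r : Γ →* G`, conjugation formulas (value of a cocycle at the point `γ x₀`
in terms of its value at `x₀`).
-/
import Fermat.Agent.S55.SH.Main
import Fermat.Agent.S55.SH.Level

set_option autoImplicit false

namespace Fermat.Agent.S55.SH

open groupCohomology CategoryTheory

universe u

variable {k G Γ : Type u} [CommRing k] [Group G] [Group Γ] {X : Type u}
variable {a : G →* Equiv.Perm X} {A : Rep k G}

/-- pull-back of 1-cochains. -/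
def pull₁ {Y : Type*} (r : Γ →* G) (f : G → Y) : Γ → Y := fun δ => f (r δ)

/-- pull-back of 2-cochains. -/
def pull₂ {Y : Type*} (r : Γ →* G) (F : G × G → Y) : Γ × Γ → Y := fun p => F (r p.1, r p.2)

/-- restriction of `Map(X, A)` is `Map(X, res A)`, definitionally. -/
theorem res_Coind (r : Γ →* G) :
    Rep.res r (Coind a A) = Coind (a.comp r) (Rep.res r A) := rfl

theorem d₀₁_pull (r : Γ →* G) (B : Rep k G) (c : B) :
    (d₀₁ (Rep.res r B)).hom c = pull₁ r ((d₀₁ B).hom c) := rfl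

theorem d₁₂_pull₁ (r : Γ →* G) (B : Rep k G) (f : G → B) :
    (d₁₂ (Rep.res r B)).hom (pull₁ r f) = pull₂ r ((d₁₂ B).hom f) := by
  ext ⟨g, h⟩
  simp [pull₁, pull₂, d₁₂_hom_apply]

theorem pull₁_mem_cocycles₁ (r : Γ →* G) (B : Rep k G) (f : G → B) (hf : f ∈ cocycles₁ B) :
    pull₁ r f ∈ cocycles₁ (Rep.res r B) := by
  rw [mem_cocycles₁_iff] at hf ⊢
  intro g h
  simp only [pull₁, map_mul, hf]
  rfl

theorem pull₂_mem_cocycles₂ (r : Γ →* G) (B : Rep k G) (F : G × G → B) (hF : F ∈ cocycles₂ B) :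
    pull₂ r F ∈ cocycles₂ (Rep.res r B) := by
  rw [mem_cocycles₂_iff] at hF ⊢
  intro g h j
  simp only [pull₂, map_mul, hF]
  rfl

theorem isLC_pull₁ {𝒰 : Set (Subgroup G)} {Y : Type*} (r : Γ →* G) (f : G → Y) (hf : IsLC₁ 𝒰 f) :
    IsLC₁ (comapLev r 𝒰) (pull₁ r f) := hf.precomp r

theorem isLC_pull₂ {𝒰 : Set (Subgroup G)} {Y : Type*} (r : Γ →* G) (F : G × G → Y)
    (hF : IsLC₂ 𝒰 F) : IsLC₂ (comapLev r 𝒰) (pull₂ r F) := hF.precomp r

/-! ### conjugation formulas -/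

/-- degree 0. -/
theorem conj_formula₀ (φ : X → A) (hφ : ∀ g, (Coind a A).ρ g φ = φ) (γ : G) (x₀ : X) :
    φ (a γ x₀) = A.ρ γ (φ x₀) := by
  have := congrFun (hφ γ) (a γ x₀)
  rw [Coind_ρ_apply] at this
  rw [← this]
  simp

/-- degree 1: for `g` fixing `γ x₀`. -/
theorem conj_formula₁ (f : G → X → A) (hf : f ∈ cocycles₁ (Coind a A)) (γ : G) (x₀ : X) (g : G)
    (hg : a g (a γ x₀) = a γ x₀) :
    f g (a γ x₀) = A.ρ γ (f (γ⁻¹ * g * γ) x₀)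
      - (A.ρ g (f γ (a γ x₀)) - f γ (a γ x₀)) := by
  rw [mem_cocycles₁_iff] at hf
  have h1 := congrFun (hf γ (γ⁻¹ * g * γ)) (a γ x₀)
  have h2 := congrFun (hf g γ) (a γ x₀)
  have e : γ * (γ⁻¹ * g * γ) = g * γ := by group
  have hg' : (a g)⁻¹ (a γ x₀) = a γ x₀ := by
    rw [Equiv.Perm.inv_eq_iff_eq, hg]
  have hγ : (a γ)⁻¹ (a γ x₀) = x₀ := by simp
  rw [e] at h1
  simp only [Pi.add_apply, coindRho_apply, hg', hγ] at h1 h2
  rw [h2] at h1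
  rw [eq_sub_of_add_eq' h1]
  abel

/-- the correcting 1-cochain in degree 2. -/
def conjKap (a : G →* Equiv.Perm X) (F : G × G → X → A) (γ : G) (x₀ : X) : G → A :=
  fun g => F (g, γ) (a γ x₀) - F (γ, γ⁻¹ * g * γ) (a γ x₀)

/-- degree 2: for `g₁, g₂` fixing `γ x₀`. -/
theorem conj_formula₂ (F : G × G → X → A) (hF : F ∈ cocycles₂ (Coind a A)) (γ : G) (x₀ : X)
    (g₁ g₂ : G) (h₁ : a g₁ (a γ x₀) = a γ x₀) :
    F (g₁, g₂) (a γ x₀) = A.ρ γ (F (γ⁻¹ * g₁ * γ, γ⁻¹ * g₂ * γ) x₀)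
      + (A.ρ g₁ (conjKap a F γ x₀ g₂) - conjKap a F γ x₀ (g₁ * g₂) + conjKap a F γ x₀ g₁) := by
  rw [mem_cocycles₂_iff] at hF
  have e1 := congrFun (hF γ (γ⁻¹ * g₁ * γ) (γ⁻¹ * g₂ * γ)) (a γ x₀)
  have e2 := congrFun (hF g₁ γ (γ⁻¹ * g₂ * γ)) (a γ x₀)
  have e3 := congrFun (hF g₁ g₂ γ) (a γ x₀)
  have c1 : γ * (γ⁻¹ * g₁ * γ) = g₁ * γ := by group
  have c2 : γ * (γ⁻¹ * g₂ * γ) = g₂ * γ := by group
  have c3 : γ⁻¹ * g₁ * γ * (γ⁻¹ * g₂ * γ) = γ⁻¹ * (g₁ * g₂) * γ := by group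
  have hg' : (a g₁)⁻¹ (a γ x₀) = a γ x₀ := by
    rw [Equiv.Perm.inv_eq_iff_eq, h₁]
  have hγ : (a γ)⁻¹ (a γ x₀) = x₀ := by simp
  rw [c1, c3] at e1
  rw [c2] at e2
  simp only [Pi.add_apply, coindRho_apply, hg', hγ] at e1 e2 e3
  simp only [conjKap, map_sub]
  have e1' := eq_sub_of_add_eq e1.symm
  have e2' := eq_sub_of_add_eq e2
  have e3' := eq_sub_of_add_eq' e3.symm
  rw [e1', e2', e3']
  abel

/-- the correcting cochain is right invariant under a normal level of `F`. -/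
theorem rinv_conjKap {U : Subgroup G} [U.Normal] (F : G × G → X → A) (hF : RInv₂ U F) (γ : G)
    (x₀ : X) : RInv₁ U (conjKap a F γ x₀) := by
  intro g u hu
  have hm : γ⁻¹ * u * γ ∈ U := by
    have := ‹U.Normal›.conj_mem u hu γ⁻¹
    simpa using this
  have e : γ⁻¹ * (g * u) * γ = γ⁻¹ * g * γ * (γ⁻¹ * u * γ) := by group
  have h1 := hF g γ u hu 1 U.one_mem
  have h2 := hF γ (γ⁻¹ * g * γ) 1 U.one_mem _ hm
  rw [mul_one] at h1 h2
  simp only [conjKap, e, h1, h2]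

end Fermat.Agent.S55.SH
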