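/-
S55-SH : dictionary between the `Rep`-language of `SH/*` and the language of `S55/Defs*.lean`.
-/
import Fermat.Agent.S55.ShDefs
import Fermat.Agent.S55.SH.Level
import Fermat.Agent.S55.SH.Conj

set_option autoImplicit false

namespace Fermat.Agent.S55.SH

open groupCohomology CategoryTheory

variable {k : Type} [CommRing k] {H Γ : Type} [Group H] [Group Γ]
variable {A : Type} [AddCommGroup A] [Module k A] (ρ : Representation k H A)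

theorem d₀₁_of : (d₀₁ (Rep.of ρ)).hom = d0 ρ := rfl

theorem d₁₂_of : (d₁₂ (Rep.of ρ)).hom = d1 ρ := rfl

theorem d₂₃_of : (d₂₃ (Rep.of ρ)).hom = d2 ρ := rfl

theorem mem_cocycles₁_of (f : H → A) : f ∈ cocycles₁ (Rep.of ρ) ↔ d1 ρ f = 0 := Iff.rfl

theorem mem_cocycles₂_of (F : H × H → A) : F ∈ cocycles₂ (Rep.of ρ) ↔ d2 ρ F = 0 := Iff.rfl

theorem coindRho_toPermHom (X : Type) [MulAction H X] :
    coindRho (MulAction.toPermHom H X) (Rep.of ρ) = coind X ρ := rfl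

theorem Coind_of (X : Type) [MulAction H X] :
    Coind (MulAction.toPermHom H X) (Rep.of ρ) = Rep.of (coind X ρ) := rfl

theorem res_of (r : Γ →* H) : Rep.res r (Rep.of ρ) = Rep.of (ρ.comp r) := rfl

theorem levelSys_mem (𝒱 : Lev H) : LevelSys 𝒱.mem where
  inter := fun U hU V hV => by
    obtain ⟨W, hW, h1, h2⟩ := 𝒱.directed U hU V hV
    exact ⟨W, hW, le_inf h1 h2⟩
  normal := fun U hU => by
    obtain ⟨W, hW, h1, h2⟩ := 𝒱.normal U hU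
    exact ⟨W, hW, h2, h1⟩

theorem isLC₁_iff (𝒱 : Lev H) {Y : Type*} (f : H → Y) : IsLC₁ 𝒱.mem f ↔ LC1 𝒱 f := Iff.rfl

theorem isLC₂_iff (𝒱 : Lev H) {Y : Type*} (f : H × H → Y) : IsLC₂ 𝒱.mem f ↔ LC2 𝒱 f := by
  constructor
  · rintro ⟨U, hU, h⟩
    exact ⟨U, hU, fun g g' s s' hs hs' => h g g' s hs s' hs'⟩
  · rintro ⟨U, hU, h⟩
    exact ⟨U, hU, fun g g' s hs s' hs' => h g g' s s' hs hs'⟩

theorem comap_mem (𝒱 : Lev H) (r : Γ →* H) : (𝒱.comap r).mem = comapLev r 𝒱.mem := by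
  ext W
  constructor
  · rintro ⟨V, hV, rfl⟩
    exact ⟨V, hV, rfl⟩
  · rintro ⟨V, hV, rfl⟩
    exact ⟨V, hV, rfl⟩

theorem sub_mem (𝒱 : Lev H) (V : Subgroup H) : (𝒱.sub V).mem = comapLev V.subtype 𝒱.mem :=
  comap_mem 𝒱 V.subtype

theorem mem_Z0_iff (c : A) : c ∈ Z0 ρ ↔ ∀ g, (Rep.of ρ).ρ g c = c := mem_Z0

theorem mem_Z1_iff (𝒱 : Lev H) (f : H → A) :
    f ∈ Z1 𝒱 ρ ↔ f ∈ cocycles₁ (Rep.of ρ) ∧ IsLC₁ 𝒱.mem f := by
  rw [mem_Z1, isLC₁_iff, mem_cocycles₁_of, and_comm]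

theorem mem_Z2_iff (𝒱 : Lev H) (F : H × H → A) :
    F ∈ Z2 𝒱 ρ ↔ F ∈ cocycles₂ (Rep.of ρ) ∧ IsLC₂ 𝒱.mem F := by
  rw [mem_Z2, isLC₂_iff, mem_cocycles₂_of, and_comm]

theorem mem_B1_iff (f : H → A) : f ∈ B1 ρ ↔ ∃ c : A, (d₀₁ (Rep.of ρ)).hom c = f := Iff.rfl

theorem mem_B2_iff (𝒱 : Lev H) (F : H × H → A) :
    F ∈ B2 𝒱 ρ ↔ ∃ z : H → A, IsLC₁ 𝒱.mem z ∧ (d₁₂ (Rep.of ρ)).hom z = F := Iff.rfl

theorem res1_eq_pull₁ (r : Γ →* H) (f : H → A) : res1 (k := k) r f = pull₁ r f := rfl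

theorem res2_eq_pull₂ (r : Γ →* H) (F : H × H → A) : res2 (k := k) r F = pull₂ r F := rfl

end Fermat.Agent.S55.SH
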