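/-
S55-SH : the sum map `Map(X, A) → A`, corestriction `cores := (Σ over X) ∘ cs`, the trace formula
`Σ_x F(x) = cores (ev F) + d(..)`, `cores ∘ res = |X|`.
-/
import Fermat.Agent.S55.SH.Main
import Fermat.Agent.S55.SH.Level

set_option autoImplicit false

namespace Fermat.Agent.S55.SH

open groupCohomology CategoryTheory

universe u

variable {k G : Type u} [CommRing k] [Group G] {X : Type u} [Fintype X]
variable {a : G →* Equiv.Perm X} {ι : Type*} {t : ι → X} {Hs : ι → Subgroup G} (σ : Sec a t Hs)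
variable {A : Rep k G}

/-- sum over `X` of a 1-cochain. -/
def sum₁ (f : G → X → A) : G → A := fun g => ∑ x, f g x

/-- sum over `X` of a 2-cochain. -/
def sum₂ (F : G × G → X → A) : G × G → A := fun p => ∑ x, F p x

/-- the constant-function embedding on 1-cochains. -/
def const₁ (X : Type u) (f : G → A) : G → X → A := fun g _ => f g

/-- the constant-function embedding on 2-cochains. -/
def const₂ (X : Type u) (F : G × G → A) : G × G → X → A := fun p _ => F p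

/-- corestriction on 0-cochains (the norm). -/
def Sec.cores₀ (ψ : ι → A) : A := ∑ x, σ.cs₀ ψ x

/-- corestriction on 1-cochains. -/
def Sec.cores₁ (ψ : ∀ i, Hs i → A) : G → A := sum₁ (σ.cs₁ ψ)

/-- corestriction on 2-cochains. -/
def Sec.cores₂ (ψ : ∀ i, Hs i × Hs i → A) : G × G → A := sum₂ (σ.cs₂ ψ)

theorem sum_ρ (g : G) (φ : X → A) :
    ∑ x, (Coind a A).ρ g φ x = A.ρ g (∑ x, φ x) := by
  rw [map_sum]
  exact Equiv.sum_comp ((a g)⁻¹) (fun x => A.ρ g (φ x))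

theorem d₀₁_sum (φ : X → A) :
    (d₀₁ A).hom (∑ x, φ x) = sum₁ ((d₀₁ (Coind a A)).hom φ) := by
  funext g
  rw [d₀₁_hom_apply]
  simp only [sum₁]
  have : ∀ x, (d₀₁ (Coind a A)).hom φ g x = (Coind a A).ρ g φ x - φ x := fun x => by
    rw [d₀₁_hom_apply]; rfl
  simp only [this]
  rw [Finset.sum_sub_distrib, sum_ρ]

theorem d₁₂_sum₁ (f : G → X → A) :
    (d₁₂ A).hom (sum₁ f) = sum₂ ((d₁₂ (Coind a A)).hom f) := by
  funext ⟨g, h⟩
  rw [d₁₂_hom_apply]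
  simp only [sum₁, sum₂]
  have : ∀ x, (d₁₂ (Coind a A)).hom f (g, h) x
      = (Coind a A).ρ g (f h) x - f (g * h) x + f g x := fun x => by
    rw [d₁₂_hom_apply]; rfl
  simp only [this]
  rw [Finset.sum_add_distrib, Finset.sum_sub_distrib, sum_ρ]

theorem sum₁_mem_cocycles₁ (f : G → X → A) (hf : f ∈ cocycles₁ (Coind a A)) :
    sum₁ f ∈ cocycles₁ A := by
  have h1 : (d₁₂ (Coind a A)).hom f = 0 := hf
  change (d₁₂ A).hom (sum₁ f) = 0
  rw [d₁₂_sum₁ (a := a), h1]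
  funext p
  simp only [sum₂]
  exact Finset.sum_eq_zero fun x _ => rfl

theorem sum₂_mem_cocycles₂ (F : G × G → X → A) (hF : F ∈ cocycles₂ (Coind a A)) :
    sum₂ F ∈ cocycles₂ A := by
  rw [mem_cocycles₂_iff] at hF ⊢
  intro g h j
  have key : ∀ x, F (g * h, j) x + F (g, h) x
      = (Coind a A).ρ g (F (h, j)) x + F (g, h * j) x := fun x => congrFun (hF g h j) x
  simp only [sum₂]
  rw [← Finset.sum_add_distrib, Finset.sum_congr rfl fun x _ => key x, Finset.sum_add_distrib,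
    sum_ρ]

theorem rinv_sum₁ {U : Subgroup G} (f : G → X → A) (hf : RInv₁ U f) : RInv₁ U (sum₁ f) := by
  intro g u hu
  simp only [sum₁, hf g u hu]

theorem rinv_sum₂ {U : Subgroup G} (F : G × G → X → A) (hF : RInv₂ U F) : RInv₂ U (sum₂ F) := by
  intro g g' u hu u' hu'
  simp only [sum₂, hF g g' u hu u' hu']

theorem isLC_sum₁ {𝒰 : Set (Subgroup G)} (f : G → X → A) (hf : IsLC₁ 𝒰 f) : IsLC₁ 𝒰 (sum₁ f) := by
  obtain ⟨U, hU, h⟩ := hf
  exact ⟨U, hU, rinv_sum₁ f h⟩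

theorem isLC_sum₂ {𝒰 : Set (Subgroup G)} (F : G × G → X → A) (hF : IsLC₂ 𝒰 F) :
    IsLC₂ 𝒰 (sum₂ F) := by
  obtain ⟨U, hU, h⟩ := hF
  exact ⟨U, hU, rinv_sum₂ F h⟩

/-- `cores` commutes with `d`. -/
theorem Sec.d₀₁_cores₀ (ψ : ι → A) :
    (d₀₁ A).hom (σ.cores₀ ψ) = σ.cores₁ (dFam₀₁ Hs A ψ) := by
  rw [Sec.cores₀, d₀₁_sum (a := a), σ.d₀₁_cs₀, Sec.cores₁]

theorem Sec.d₁₂_cores₁ (ψ : ∀ i, Hs i → A) :
    (d₁₂ A).hom (σ.cores₁ ψ) = σ.cores₂ (dFam₁₂ Hs A ψ) := by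
  rw [Sec.cores₁, d₁₂_sum₁ (a := a), σ.d₁₂_cs₁, Sec.cores₂]

theorem Sec.cores₁_mem_cocycles₁ (ψ : ∀ i, Hs i → A)
    (hψ : ∀ i, ψ i ∈ cocycles₁ (Rep.res (Hs i).subtype A)) : σ.cores₁ ψ ∈ cocycles₁ A := by
  exact sum₁_mem_cocycles₁ (a := a) _ (σ.cs₁_mem_cocycles₁ ψ hψ)

theorem Sec.cores₂_mem_cocycles₂ (ψ : ∀ i, Hs i × Hs i → A)
    (hψ : ∀ i, ψ i ∈ cocycles₂ (Rep.res (Hs i).subtype A)) : σ.cores₂ ψ ∈ cocycles₂ A := by
  exact sum₂_mem_cocycles₂ (a := a) _ (σ.cs₂_mem_cocycles₂ ψ hψ)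

theorem Sec.rinv_cores₁ {U : Subgroup G} [U.Normal] (hU : ∀ u ∈ U, a u = 1) (ψ : ∀ i, Hs i → A)
    (hψ : ∀ x, RInv₁ (U.subgroupOf (Hs (σ.idx x))) (ψ (σ.idx x))) : RInv₁ U (σ.cores₁ ψ) := by
  exact rinv_sum₁ _ (σ.rinv_cs₁ hU ψ hψ)

theorem Sec.rinv_cores₂ {U : Subgroup G} [U.Normal] (hU : ∀ u ∈ U, a u = 1)
    (ψ : ∀ i, Hs i × Hs i → A)
    (hψ : ∀ x, RInv₂ (U.subgroupOf (Hs (σ.idx x))) (ψ (σ.idx x))) : RInv₂ U (σ.cores₂ ψ) := by
  exact rinv_sum₂ _ (σ.rinv_cs₂ hU ψ hψ)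

/-- additivity of `cs`, `cores` in the family. -/
theorem Sec.cs₂_add (ψ ψ' : ∀ i, Hs i × Hs i → A) : σ.cs₂ (ψ + ψ') = σ.cs₂ ψ + σ.cs₂ ψ' := by
  funext p x
  simp only [Sec.cs₂, Pi.add_apply, map_add]

theorem Sec.cs₂_smul (c : k) (ψ : ∀ i, Hs i × Hs i → A) : σ.cs₂ (c • ψ) = c • σ.cs₂ ψ := by
  funext p x
  simp only [Sec.cs₂, Pi.smul_apply, map_smul]

theorem Sec.cs₁_add (ψ ψ' : ∀ i, Hs i → A) : σ.cs₁ (ψ + ψ') = σ.cs₁ ψ + σ.cs₁ ψ' := by
  funext p x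
  simp only [Sec.cs₁, Pi.add_apply, map_add]

theorem Sec.cs₁_smul (c : k) (ψ : ∀ i, Hs i → A) : σ.cs₁ (c • ψ) = c • σ.cs₁ ψ := by
  funext p x
  simp only [Sec.cs₁, Pi.smul_apply, map_smul]

theorem Sec.cores₂_add (ψ ψ' : ∀ i, Hs i × Hs i → A) :
    σ.cores₂ (ψ + ψ') = σ.cores₂ ψ + σ.cores₂ ψ' := by
  funext p
  simp only [Sec.cores₂, sum₂, σ.cs₂_add, Pi.add_apply, Finset.sum_add_distrib]

theorem Sec.cores₂_smul (c : k) (ψ : ∀ i, Hs i × Hs i → A) :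
    σ.cores₂ (c • ψ) = c • σ.cores₂ ψ := by
  funext p
  simp only [Sec.cores₂, sum₂, σ.cs₂_smul, Pi.smul_apply, Finset.smul_sum]

theorem Sec.cores₁_add (ψ ψ' : ∀ i, Hs i → A) :
    σ.cores₁ (ψ + ψ') = σ.cores₁ ψ + σ.cores₁ ψ' := by
  funext p
  simp only [Sec.cores₁, sum₁, σ.cs₁_add, Pi.add_apply, Finset.sum_add_distrib]

theorem Sec.cores₁_smul (c : k) (ψ : ∀ i, Hs i → A) :
    σ.cores₁ (c • ψ) = c • σ.cores₁ ψ := by
  funext p
  simp only [Sec.cores₁, sum₁, σ.cs₁_smul, Pi.smul_apply, Finset.smul_sum]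

/-- **Trace formula**, degree 0. -/
theorem Sec.sum_eq_cores₀ (φ : X → A) (hφ : ∀ g, (Coind a A).ρ g φ = φ) :
    ∑ x, φ x = σ.cores₀ (ev₀ t φ) := by
  rw [Sec.cores₀, σ.cs₀_ev₀ φ hφ]

/-- **Trace formula**, degree 1. -/
theorem Sec.sum_eq_cores₁ (f : G → X → A) (hf : f ∈ cocycles₁ (Coind a A)) :
    sum₁ f = σ.cores₁ (ev₁ t Hs f) - (d₀₁ A).hom (∑ x, σ.kap₁ f x) := by
  rw [Sec.cores₁, σ.cs₁_ev₁ f hf, d₀₁_sum (a := a)]
  funext g
  simp only [sum₁, Pi.sub_apply, Pi.add_apply, Finset.sum_add_distrib]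
  exact (add_sub_cancel_right _ _).symm

/-- **Trace formula**, degree 2: the sum over `X` of a cocycle with values in `Map(X, A)` is
cohomologous to the corestriction of its Shapiro components. All projection formulas follow
from this (apply it to a pointwise cup product). -/
theorem Sec.sum_eq_cores₂ (F : G × G → X → A) (hF : F ∈ cocycles₂ (Coind a A)) :
    sum₂ F = σ.cores₂ (ev₂ t Hs F) + (d₁₂ A).hom (sum₁ (σ.kap₂ F)) := by
  rw [Sec.cores₂, σ.cs₂_ev₂ F hF, d₁₂_sum₁ (a := a)]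
  funext p
  simp only [sum₂, Pi.sub_apply, Pi.add_apply, Finset.sum_sub_distrib]
  exact (sub_add_cancel _ _).symm

/-! ### constants: `cores ∘ res = |X|` -/

omit [Fintype X] in
theorem const₁_mem_cocycles₁ (f : G → A) (hf : f ∈ cocycles₁ A) :
    const₁ X f ∈ cocycles₁ (Coind a A) := by
  rw [mem_cocycles₁_iff] at hf ⊢
  intro g h
  funext x
  exact hf g h

omit [Fintype X] in
theorem const₂_mem_cocycles₂ (F : G × G → A) (hF : F ∈ cocycles₂ A) :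
    const₂ X F ∈ cocycles₂ (Coind a A) := by
  rw [mem_cocycles₂_iff] at hF ⊢
  intro g h j
  funext x
  exact hF g h j

omit [Fintype X] in
theorem d₁₂_const₁ (f : G → A) :
    (d₁₂ (Coind a A)).hom (const₁ X f) = const₂ X ((d₁₂ A).hom f) := by
  funext ⟨g, h⟩ x
  rw [d₁₂_hom_apply]
  simp only [const₂]
  rw [d₁₂_hom_apply]
  rfl

/-- restriction of a 2-cochain to the subgroups `Hs i`. -/
def resFam₂ (Hs : ι → Subgroup G) (F : G × G → A) : ∀ i, Hs i × Hs i → A :=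
  fun _ p => F (p.1, p.2)

def resFam₁ (Hs : ι → Subgroup G) (f : G → A) : ∀ i, Hs i → A :=
  fun _ h => f h

/-- `cores (res F) = |X| • F + d(..)`. -/
theorem Sec.cores₂_res (F : G × G → A) (hF : F ∈ cocycles₂ A) :
    σ.cores₂ (resFam₂ Hs F) = Fintype.card X • F - (d₁₂ A).hom (sum₁ (σ.kap₂ (const₂ X F))) := by
  have h1 := σ.sum_eq_cores₂ (const₂ X F) (const₂_mem_cocycles₂ F hF)
  have h2 : sum₂ (const₂ X F) = Fintype.card X • F := by
    funext p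
    simp only [sum₂, const₂, Finset.sum_const, Finset.card_univ, Pi.smul_apply]
  have h3 : ev₂ t Hs (const₂ X F) = resFam₂ Hs F := rfl
  rw [h2, h3] at h1
  rw [h1, add_sub_cancel_right]

/-- **Transfer argument** at a fixed level: if the restrictions of `F` to the stabilisers are
coboundaries (of `U`-invariant cochains) then `|X| • F` is one. -/
theorem Sec.card_smul_coboundary {U : Subgroup G} [U.Normal] (hU : ∀ u ∈ U, a u = 1)
    (F : G × G → A) (hF : F ∈ cocycles₂ A) (hFU : RInv₂ U F)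
    (y : ∀ i, Hs i → A) (hyU : ∀ x, RInv₁ (U.subgroupOf (Hs (σ.idx x))) (y (σ.idx x)))
    (hy : resFam₂ Hs F = dFam₁₂ Hs A y) :
    ∃ z : G → A, RInv₁ U z ∧ (d₁₂ A).hom z = Fintype.card X • F := by
  refine ⟨σ.cores₁ y + sum₁ (σ.kap₂ (const₂ X F)), ?_, ?_⟩
  · have hc : RInv₂ U (const₂ X F) := by
      intro g g' u hu u' hu'
      funext x
      exact hFU g g' u hu u' hu'
    intro g u hu
    rw [Pi.add_apply, Pi.add_apply, σ.rinv_cores₁ hU y hyU g u hu,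
      rinv_sum₁ _ (σ.rinv_kap₂ hU _ hc) g u hu]
  · rw [map_add, σ.d₁₂_cores₁, ← hy, σ.cores₂_res F hF, sub_add_cancel]

end Fermat.Agent.S55.SH
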