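/-
S55-SH : existence of orbit data.
-/
import Fermat.Agent.S55.SH.Main

set_option autoImplicit false

namespace Fermat.Agent.S55.SH

universe u

variable {G : Type u} [Group G] {X : Type u}

/-- Orbit data exist as soon as the base points meet every orbit. -/
theorem Sec.exists_of_cover (a : G →* Equiv.Perm X) {ι : Type*} (t : ι → X) (Hs : ι → Subgroup G)
    (hH : ∀ i g, g ∈ Hs i ↔ a g (t i) = t i) (hcov : ∀ x, ∃ i g, a g (t i) = x) :
    Nonempty (Sec a t Hs) := by
  classical
  let r : Setoid X :=
    { r := fun x y => ∃ g, a g x = y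
      iseqv :=
        { refl := fun x => ⟨1, by simp⟩
          symm := by
            rintro x y ⟨g, rfl⟩
            exact ⟨g⁻¹, by simp⟩
          trans := by
            rintro x y z ⟨g, rfl⟩ ⟨h, rfl⟩
            exact ⟨h * g, by simp⟩ } }
  let rep : X → X := fun x => (Quotient.mk r x).out
  have hrep : ∀ x, ∃ g, a g (rep x) = x := fun x => Quotient.exact (Quotient.out_eq (Quotient.mk r x))
  have hrep' : ∀ g x, rep (a g x) = rep x := by
    intro g x
    have : Quotient.mk r (a g x) = Quotient.mk r x := Quotient.sound (r.symm ⟨g, rfl⟩)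
    simp only [rep, this]
  let idx : X → ι := fun x => (hcov (rep x)).choose
  have hidx : ∀ x, ∃ g, a g (t (idx x)) = x := by
    intro x
    obtain ⟨g₁, h₁⟩ := (hcov (rep x)).choose_spec
    obtain ⟨g₂, h₂⟩ := hrep x
    exact ⟨g₂ * g₁, by rw [map_mul, Equiv.Perm.mul_apply, h₁, h₂]⟩
  exact ⟨{ idx := idx
           s := fun x => (hidx x).choose
           spec := fun x => (hidx x).choose_spec
           idx_act := fun g x => by simp only [idx, hrep']
           mem_iff := hH }⟩

/-- Normalised orbit data exist if the base points form a system of representatives. -/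
theorem Sec.exists_normalized (a : G →* Equiv.Perm X) {ι : Type*} (t : ι → X)
    (Hs : ι → Subgroup G)
    (hH : ∀ i g, g ∈ Hs i ↔ a g (t i) = t i) (hcov : ∀ x, ∃ i g, a g (t i) = x)
    (hdisj : ∀ i j g, a g (t i) = t j → i = j) :
    ∃ σ : Sec a t Hs, σ.Normalized := by
  classical
  let idx : X → ι := fun x => (hcov x).choose
  have hidx : ∀ x, ∃ g, a g (t (idx x)) = x := fun x => (hcov x).choose_spec
  have huniq : ∀ x i g, a g (t i) = x → idx x = i := by
    intro x i g h
    obtain ⟨g', h'⟩ := hidx x
    refine hdisj _ _ (g⁻¹ * g') ?_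
    rw [map_mul, Equiv.Perm.mul_apply, h', ← h, map_inv]
    simp
  refine ⟨{ idx := idx
            s := fun x => if x = t (idx x) then 1 else (hidx x).choose
            spec := ?_
            idx_act := ?_
            mem_iff := hH }, ?_, ?_⟩
  · intro x
    by_cases h : x = t (idx x)
    · simp only [if_pos h, map_one, Equiv.Perm.one_apply]
      exact h.symm
    · simp only [if_neg h]
      exact (hidx x).choose_spec
  · intro g x
    obtain ⟨g', h'⟩ := hidx x
    exact huniq _ _ (g * g') (by rw [map_mul, Equiv.Perm.mul_apply, h'])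
  · intro i
    exact huniq _ _ 1 (by simp)
  · intro i
    have : idx (t i) = i := huniq _ _ 1 (by simp)
    simp only [this, if_true]

end Fermat.Agent.S55.SH
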