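/-
S55-SH : Shapiro's lemma for level-constant cochains (bijectivity statements, degrees 0, 1, 2).

`G` acts on the finite set `X` through `a`; `t i` are base points with stabilisers `Hs i`.
`𝒰` is a level system on `G`, some level acts trivially on `X`.
Levels on the subgroup `Hs i` are `comapLev (Hs i).subtype 𝒰`.
The abstract (no levels) versions are the case `𝒰 = {⊥}` (`levelSys_bot`, `isLC₁_bot`, `isLC₂_bot`).
-/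
import Fermat.Agent.S55.SH.Exists
import Fermat.Agent.S55.SH.Level

set_option autoImplicit false

namespace Fermat.Agent.S55.SH

open groupCohomology CategoryTheory

universe u

variable {k G : Type u} [CommRing k] [Group G] {X : Type u}
variable (a : G →* Equiv.Perm X) {ι : Type*} (t : ι → X) (Hs : ι → Subgroup G)
variable {A : Rep k G} {𝒰 : Set (Subgroup G)}

/-- injectivity in degree 0 (trivial). -/
theorem shapiro_inj₀ (hcov : ∀ x, ∃ i g, a g (t i) = x)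
    (φ : X → A) (hφ : ∀ g, (Coind a A).ρ g φ = φ) (h0 : ∀ i, φ (t i) = 0) : φ = 0 := by
  funext x
  obtain ⟨i, g, rfl⟩ := hcov x
  have h1 := congrFun (hφ g) (a g (t i))
  rw [Coind_ρ_apply] at h1
  rw [← h1]
  simp [h0 i]

/-- surjectivity in degree 0. -/
theorem shapiro_surj₀ (hH : ∀ i g, g ∈ Hs i ↔ a g (t i) = t i)
    (hcov : ∀ x, ∃ i g, a g (t i) = x) (hdisj : ∀ i j g, a g (t i) = t j → i = j)
    (c : ι → A) (hc : ∀ i, ∀ h ∈ Hs i, A.ρ h (c i) = c i) :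
    ∃ φ : X → A, (∀ g, (Coind a A).ρ g φ = φ) ∧ ∀ i, φ (t i) = c i := by
  obtain ⟨σ, hσ⟩ := Sec.exists_normalized a t Hs hH hcov hdisj
  refine ⟨σ.cs₀ c, fun g => ?_, fun i => congrFun (hσ.ev₀_cs₀ c) i⟩
  funext x
  rw [Coind_ρ_apply]
  simp only [Sec.cs₀, σ.idx_inv]
  rw [← σ.ρ_s_ρ_eta x g, hc _ _ (σ.eta x 1 g).2]

/-- injectivity in degree 1. -/
theorem shapiro_inj₁ (hH : ∀ i g, g ∈ Hs i ↔ a g (t i) = t i)
    (hcov : ∀ x, ∃ i g, a g (t i) = x)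
    (f : G → X → A) (hf : f ∈ cocycles₁ (Coind a A))
    (h : ∀ i, ∃ c : A, ∀ h : Hs i, f h (t i) = A.ρ h c - c) :
    ∃ φ : X → A, (d₀₁ (Coind a A)).hom φ = f := by
  obtain ⟨σ⟩ := Sec.exists_of_cover a t Hs hH hcov
  choose c hc using h
  refine ⟨σ.cs₀ c - σ.kap₁ f, ?_⟩
  have h1 : (d₀₁ (Coind a A)).hom (σ.cs₀ c) = σ.cs₁ (ev₁ t Hs f) := by
    ext g x
    rw [d₀₁_hom_apply]
    simp only [Pi.sub_apply, coindRho_apply, Sec.cs₀, Sec.cs₁, ev₁, hc, map_sub, σ.ρ_s_ρ_eta,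
      σ.idx_inv]
  rw [map_sub, h1, σ.cs₁_ev₁ f hf]
  exact add_sub_cancel_right _ _

/-- surjectivity in degree 1, level-constant cochains. -/
theorem shapiro_surj₁ [Finite X] (h𝒰 : LevelSys 𝒰) (htriv : ∃ U ∈ 𝒰, ∀ u ∈ U, a u = 1)
    (hH : ∀ i g, g ∈ Hs i ↔ a g (t i) = t i)
    (hcov : ∀ x, ∃ i g, a g (t i) = x) (hdisj : ∀ i j g, a g (t i) = t j → i = j)
    (ψ : ∀ i, Hs i → A) (hψ : ∀ i, ψ i ∈ cocycles₁ (Rep.res (Hs i).subtype A))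
    (hψL : ∀ i, IsLC₁ (comapLev (Hs i).subtype 𝒰) (ψ i)) :
    ∃ f : G → X → A, f ∈ cocycles₁ (Coind a A) ∧ IsLC₁ 𝒰 f ∧ ev₁ t Hs f = ψ := by
  obtain ⟨σ, hσ⟩ := Sec.exists_normalized a t Hs hH hcov hdisj
  obtain ⟨U₀, hU₀, htr⟩ := htriv
  have hx : ∀ x, ∃ V ∈ 𝒰, RInv₁ (V.subgroupOf (Hs (σ.idx x))) (ψ (σ.idx x)) := by
    intro x
    obtain ⟨_, ⟨V, hV, rfl⟩, h⟩ := hψL (σ.idx x)
    exact ⟨V, hV, h⟩
  choose V hV hVψ using hx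
  obtain ⟨W, hW, hWn, hle⟩ := h𝒰.exists_normal_le_finite ⟨U₀, hU₀⟩
    (fun j : Option X => j.elim U₀ V) (by rintro (_ | x); exacts [hU₀, hV x])
  refine ⟨σ.cs₁ ψ, σ.cs₁_mem_cocycles₁ ψ hψ, ⟨W, hW, ?_⟩, hσ.ev₁_cs₁ ψ⟩
  refine σ.rinv_cs₁ (fun u hu => htr u (hle none hu)) ψ fun x => ?_
  exact (hVψ x).mono (Subgroup.comap_mono (hle (some x)))

/-- injectivity in degree 2, level-constant cochains. -/
theorem shapiro_inj₂ [Finite X] (h𝒰 : LevelSys 𝒰) (htriv : ∃ U ∈ 𝒰, ∀ u ∈ U, a u = 1)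
    (hH : ∀ i g, g ∈ Hs i ↔ a g (t i) = t i)
    (hcov : ∀ x, ∃ i g, a g (t i) = x)
    (F : G × G → X → A) (hF : F ∈ cocycles₂ (Coind a A)) (hFL : IsLC₂ 𝒰 F)
    (h : ∀ i, ∃ y : Hs i → A, IsLC₁ (comapLev (Hs i).subtype 𝒰) y ∧
      (d₁₂ (Rep.res (Hs i).subtype A)).hom y = ev₂ t Hs F i) :
    ∃ z : G → X → A, IsLC₁ 𝒰 z ∧ (d₁₂ (Coind a A)).hom z = F := by
  obtain ⟨σ⟩ := Sec.exists_of_cover a t Hs hH hcov
  obtain ⟨U₀, hU₀, htr⟩ := htriv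
  obtain ⟨U₁, hU₁, hFU⟩ := hFL
  choose y hyL hy using h
  have hx : ∀ x, ∃ V ∈ 𝒰, RInv₁ (V.subgroupOf (Hs (σ.idx x))) (y (σ.idx x)) := by
    intro x
    obtain ⟨_, ⟨V, hV, rfl⟩, h⟩ := hyL (σ.idx x)
    exact ⟨V, hV, h⟩
  choose V hV hVy using hx
  obtain ⟨W, hW, hWn, hle⟩ := h𝒰.exists_normal_le_finite ⟨U₀, hU₀⟩
    (fun j : Option (Option X) => j.elim U₀ (fun j' => j'.elim U₁ V))
    (by rintro (_ | _ | x); exacts [hU₀, hU₁, hV x])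
  obtain ⟨z, hz, hdz⟩ := σ.shapiro_inj₂ (U := W) (fun u hu => htr u (hle none hu)) F hF
    (hFU.mono (hle (some none))) y
    (fun x => (hVy x).mono (Subgroup.comap_mono (hle (some (some x)))))
    (by funext i; exact (hy i).symm)
  exact ⟨z, ⟨W, hW, hz⟩, hdz⟩

/-- surjectivity in degree 2, level-constant cochains. -/
theorem shapiro_surj₂ [Finite X] (h𝒰 : LevelSys 𝒰) (htriv : ∃ U ∈ 𝒰, ∀ u ∈ U, a u = 1)
    (hH : ∀ i g, g ∈ Hs i ↔ a g (t i) = t i)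
    (hcov : ∀ x, ∃ i g, a g (t i) = x) (hdisj : ∀ i j g, a g (t i) = t j → i = j)
    (ψ : ∀ i, Hs i × Hs i → A) (hψ : ∀ i, ψ i ∈ cocycles₂ (Rep.res (Hs i).subtype A))
    (hψL : ∀ i, IsLC₂ (comapLev (Hs i).subtype 𝒰) (ψ i)) :
    ∃ F : G × G → X → A, F ∈ cocycles₂ (Coind a A) ∧ IsLC₂ 𝒰 F ∧ ev₂ t Hs F = ψ := by
  obtain ⟨σ, hσ⟩ := Sec.exists_normalized a t Hs hH hcov hdisj
  obtain ⟨U₀, hU₀, htr⟩ := htriv
  have hx : ∀ x, ∃ V ∈ 𝒰, RInv₂ (V.subgroupOf (Hs (σ.idx x))) (ψ (σ.idx x)) := by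
    intro x
    obtain ⟨_, ⟨V, hV, rfl⟩, h⟩ := hψL (σ.idx x)
    exact ⟨V, hV, h⟩
  choose V hV hVψ using hx
  obtain ⟨W, hW, hWn, hle⟩ := h𝒰.exists_normal_le_finite ⟨U₀, hU₀⟩
    (fun j : Option X => j.elim U₀ V) (by rintro (_ | x); exacts [hU₀, hV x])
  refine ⟨σ.cs₂ ψ, σ.cs₂_mem_cocycles₂ ψ hψ, ⟨W, hW, ?_⟩, hσ.ev₂_cs₂ ψ⟩
  refine σ.rinv_cs₂ (fun u hu => htr u (hle none hu)) ψ fun x => ?_
  exact (hVψ x).mono (Subgroup.comap_mono (hle (some x)))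

/-- `ev` preserves level-constancy. -/
theorem isLC_ev₁ (f : G → X → A) (hf : IsLC₁ 𝒰 f) (i : ι) :
    IsLC₁ (comapLev (Hs i).subtype 𝒰) (ev₁ t Hs f i) := by
  obtain ⟨U, hU, h⟩ := hf
  exact ⟨_, ⟨U, hU, rfl⟩, rinv_ev₁ f h i⟩

theorem isLC_ev₂ (F : G × G → X → A) (hF : IsLC₂ 𝒰 F) (i : ι) :
    IsLC₂ (comapLev (Hs i).subtype 𝒰) (ev₂ t Hs F i) := by
  obtain ⟨U, hU, h⟩ := hF
  exact ⟨_, ⟨U, hU, rfl⟩, rinv_ev₂ F h i⟩

/-- the easy direction: `ev₂` of a level-constant coboundary is one. -/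
theorem ev₂_coboundary (hH : ∀ i g, g ∈ Hs i ↔ a g (t i) = t i)
    (z : G → X → A) (hz : IsLC₁ 𝒰 z) (i : ι) :
    ∃ y : Hs i → A, IsLC₁ (comapLev (Hs i).subtype 𝒰) y ∧
      (d₁₂ (Rep.res (Hs i).subtype A)).hom y = ev₂ t Hs ((d₁₂ (Coind a A)).hom z) i := by
  refine ⟨ev₁ t Hs z i, isLC_ev₁ t Hs z hz i, ?_⟩
  have hb : ∀ h : Hs i, (a (h : G))⁻¹ (t i) = t i := fun h => by
    rw [Equiv.Perm.inv_eq_iff_eq, (hH i h).1 h.2]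
  funext ⟨h, h'⟩
  change dFam₁₂ Hs A (ev₁ t Hs z) i (h, h') = _
  rw [dFam₁₂_apply]
  simp only [ev₂, ev₁, d₁₂_hom_apply, Pi.sub_apply, Pi.add_apply, coindRho_apply, hb,
    Subgroup.coe_mul]

end Fermat.Agent.S55.SH
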