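/-
S55-SH : EXPORTS of the Shapiro module in the language of `S55/Defs*.lean` (part 1: transitive Shapiro).
Statements fixed by helper55 (module T).
-/
import Fermat.Agent.S55.SH.Adapter
import Fermat.Agent.S55.SH.LC

set_option autoImplicit false

namespace Fermat.Agent.S55

section transitive

variable {k : Type} [CommRing k] {H : Type} [Group H] (𝒱 : Lev H)
variable {A : Type} [AddCommGroup A] [Module k A] (ρ : Representation k H A)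
variable (V : Subgroup H)

/-! ### facts on the action of `H` on `H ⧸ V` -/

theorem export1_smul_base (g : H) :
    MulAction.toPermHom H (H ⧸ V) g ((1 : H) : H ⧸ V) = ((g : H) : H ⧸ V) := by
  change (((g * 1 : H)) : H ⧸ V) = _
  rw [mul_one]

theorem export1_hH (i : Unit) (g : H) : g ∈ (fun _ : Unit => V) i ↔
    MulAction.toPermHom H (H ⧸ V) g ((fun _ : Unit => ((1 : H) : H ⧸ V)) i) =
      (fun _ : Unit => ((1 : H) : H ⧸ V)) i := by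
  change g ∈ V ↔ MulAction.toPermHom H (H ⧸ V) g ((1 : H) : H ⧸ V) = ((1 : H) : H ⧸ V)
  rw [export1_smul_base, QuotientGroup.eq, mul_one, inv_mem_iff]

theorem export1_hcov (x : H ⧸ V) : ∃ (i : Unit) (g : H),
    MulAction.toPermHom H (H ⧸ V) g ((fun _ : Unit => ((1 : H) : H ⧸ V)) i) = x := by
  obtain ⟨g, rfl⟩ := QuotientGroup.mk_surjective x
  exact ⟨(), g, export1_smul_base V g⟩

theorem export1_hdisj (i j : Unit) (g : H)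
    (_h : MulAction.toPermHom H (H ⧸ V) g ((fun _ : Unit => ((1 : H) : H ⧸ V)) i) =
      (fun _ : Unit => ((1 : H) : H ⧸ V)) j) : i = j := rfl

theorem export1_inv_base (v : V) : ((v : H)⁻¹ • (((1 : H) : H ⧸ V))) = ((1 : H) : H ⧸ V) := by
  have h := (export1_hH V () ((v : H)⁻¹)).1 (V.inv_mem v.2)
  exact h

variable {V} in
theorem export1_htriv (hV : V ∈ 𝒱.mem) :
    ∃ U ∈ 𝒱.mem, ∀ u ∈ U, MulAction.toPermHom H (H ⧸ V) u = 1 := by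
  obtain ⟨W, hW, hWV, hn⟩ := 𝒱.normal V hV
  refine ⟨W, hW, fun w hw => ?_⟩
  ext x
  obtain ⟨g, rfl⟩ := QuotientGroup.mk_surjective x
  change (((w * g : H)) : H ⧸ V) = ((g : H) : H ⧸ V)
  rw [QuotientGroup.eq]
  have h1 : g⁻¹ * w⁻¹ * g⁻¹⁻¹ ∈ W := hn.conj_mem w⁻¹ (W.inv_mem hw) g⁻¹
  rw [inv_inv] at h1
  rw [mul_inv_rev]
  exact hWV h1

variable {V} in
theorem export1_finite (hV : V ∈ 𝒱.mem) : Finite (H ⧸ V) := by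
  have := 𝒱.finiteIndex V hV
  infer_instance

theorem sh0_mem {f : H ⧸ V → A} (hf : f ∈ Z0 (coind (H ⧸ V) ρ)) :
    sh0 (k := k) V f ∈ Z0 (ρ.comp V.subtype) := by
  rw [mem_Z0] at hf ⊢
  intro v
  have h1 := congrFun (hf (v : H)) ((1 : H) : H ⧸ V)
  change ρ (v : H) (f ((v : H)⁻¹ • ((1 : H) : H ⧸ V))) = f ((1 : H) : H ⧸ V) at h1
  rw [export1_inv_base] at h1
  exact h1

theorem sh0_inj {f : H ⧸ V → A} (hf : f ∈ Z0 (coind (H ⧸ V) ρ)) (h : sh0 (k := k) V f = 0) :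
    f = 0 :=
  SH.shapiro_inj₀ (A := Rep.of ρ) (MulAction.toPermHom H (H ⧸ V))
    (fun _ : Unit => ((1 : H) : H ⧸ V)) (export1_hcov V) f (mem_Z0.1 hf) (fun _ => h)

theorem sh0_surj {a : A} (ha : a ∈ Z0 (ρ.comp V.subtype)) :
    ∃ f ∈ Z0 (coind (H ⧸ V) ρ), sh0 (k := k) V f = a := by
  obtain ⟨φ, h1, h2⟩ := SH.shapiro_surj₀ (A := Rep.of ρ) (MulAction.toPermHom H (H ⧸ V))
    (fun _ : Unit => ((1 : H) : H ⧸ V)) (fun _ : Unit => V) (export1_hH V) (export1_hcov V)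
    (export1_hdisj V) (fun _ => a) (fun _ h hh => mem_Z0.1 ha ⟨h, hh⟩)
  exact ⟨φ, mem_Z0.2 h1, h2 ()⟩

theorem sh1_mem {f : H → (H ⧸ V → A)} (hf : f ∈ Z1 𝒱 (coind (H ⧸ V) ρ)) :
    sh1 (k := k) V f ∈ Z1 (𝒱.sub V) (ρ.comp V.subtype) := by
  obtain ⟨σ⟩ := SH.Sec.exists_of_cover (MulAction.toPermHom H (H ⧸ V))
    (fun _ : Unit => ((1 : H) : H ⧸ V)) (fun _ : Unit => V) (export1_hH V) (export1_hcov V)
  rw [SH.mem_Z1_iff] at hf ⊢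
  rw [SH.sub_mem]
  exact ⟨σ.ev₁_mem_cocycles₁ (A := Rep.of ρ) f hf.1 (),
    SH.isLC_ev₁ (A := Rep.of ρ) (fun _ : Unit => ((1 : H) : H ⧸ V)) (fun _ : Unit => V) f hf.2 ()⟩

theorem sh1_B1 {f : H → (H ⧸ V → A)} (hf : f ∈ B1 (coind (H ⧸ V) ρ)) :
    sh1 (k := k) V f ∈ B1 (ρ.comp V.subtype) := by
  obtain ⟨φ, rfl⟩ := hf
  refine ⟨φ ((1 : H) : H ⧸ V), ?_⟩
  funext v
  change ρ (v : H) (φ ((1 : H) : H ⧸ V)) - φ ((1 : H) : H ⧸ V) =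
    ρ (v : H) (φ ((v : H)⁻¹ • ((1 : H) : H ⧸ V))) - φ ((1 : H) : H ⧸ V)
  rw [export1_inv_base]

theorem sh1_inj {f : H → (H ⧸ V → A)} (hf : f ∈ Z1 𝒱 (coind (H ⧸ V) ρ))
    (h : sh1 (k := k) V f ∈ B1 (ρ.comp V.subtype)) : f ∈ B1 (coind (H ⧸ V) ρ) := by
  obtain ⟨c, hc⟩ := h
  exact SH.shapiro_inj₁ (A := Rep.of ρ) (MulAction.toPermHom H (H ⧸ V))
    (fun _ : Unit => ((1 : H) : H ⧸ V)) (fun _ : Unit => V) (export1_hH V) (export1_hcov V)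
    f ((SH.mem_Z1_iff _ 𝒱 f).1 hf).1 (fun _ => ⟨c, fun v => (congrFun hc v).symm⟩)

theorem sh1_surj (hV : V ∈ 𝒱.mem) (hρ : Smooth ρ 𝒱) {x : ↥V → A}
    (hx : x ∈ Z1 (𝒱.sub V) (ρ.comp V.subtype)) :
    ∃ f ∈ Z1 𝒱 (coind (H ⧸ V) ρ), sh1 (k := k) V f = x := by
  have := export1_finite 𝒱 hV
  rw [SH.mem_Z1_iff, SH.sub_mem] at hx
  obtain ⟨f, h1, h2, h3⟩ := SH.shapiro_surj₁ (A := Rep.of ρ) (MulAction.toPermHom H (H ⧸ V))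
    (fun _ : Unit => ((1 : H) : H ⧸ V)) (fun _ : Unit => V) (SH.levelSys_mem 𝒱)
    (export1_htriv 𝒱 hV) (export1_hH V) (export1_hcov V) (export1_hdisj V)
    (fun _ => x) (fun _ => hx.1) (fun _ => hx.2)
  exact ⟨f, (SH.mem_Z1_iff _ 𝒱 f).2 ⟨h1, h2⟩, congrFun h3 ()⟩

theorem sh2_mem {f : H × H → (H ⧸ V → A)} (hf : f ∈ Z2 𝒱 (coind (H ⧸ V) ρ)) :
    sh2 (k := k) V f ∈ Z2 (𝒱.sub V) (ρ.comp V.subtype) := by
  obtain ⟨σ⟩ := SH.Sec.exists_of_cover (MulAction.toPermHom H (H ⧸ V))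
    (fun _ : Unit => ((1 : H) : H ⧸ V)) (fun _ : Unit => V) (export1_hH V) (export1_hcov V)
  rw [SH.mem_Z2_iff] at hf ⊢
  rw [SH.sub_mem]
  exact ⟨σ.ev₂_mem_cocycles₂ (A := Rep.of ρ) f hf.1 (),
    SH.isLC_ev₂ (A := Rep.of ρ) (fun _ : Unit => ((1 : H) : H ⧸ V)) (fun _ : Unit => V) f hf.2 ()⟩

theorem sh2_B2 {f : H × H → (H ⧸ V → A)} (hf : f ∈ B2 𝒱 (coind (H ⧸ V) ρ)) :
    sh2 (k := k) V f ∈ B2 (𝒱.sub V) (ρ.comp V.subtype) := by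
  obtain ⟨z, hz, rfl⟩ := (SH.mem_B2_iff _ 𝒱 f).1 hf
  rw [SH.mem_B2_iff, SH.sub_mem]
  exact SH.ev₂_coboundary (A := Rep.of ρ) (MulAction.toPermHom H (H ⧸ V))
    (fun _ : Unit => ((1 : H) : H ⧸ V)) (fun _ : Unit => V) (export1_hH V) z hz ()

theorem sh2_inj (hV : V ∈ 𝒱.mem) (hρ : Smooth ρ 𝒱) {f : H × H → (H ⧸ V → A)}
    (hf : f ∈ Z2 𝒱 (coind (H ⧸ V) ρ))
    (h : sh2 (k := k) V f ∈ B2 (𝒱.sub V) (ρ.comp V.subtype)) :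
    f ∈ B2 𝒱 (coind (H ⧸ V) ρ) := by
  have := export1_finite 𝒱 hV
  rw [SH.mem_Z2_iff] at hf
  rw [SH.mem_B2_iff, SH.sub_mem] at h
  rw [SH.mem_B2_iff]
  exact SH.shapiro_inj₂ (A := Rep.of ρ) (MulAction.toPermHom H (H ⧸ V))
    (fun _ : Unit => ((1 : H) : H ⧸ V)) (fun _ : Unit => V) (SH.levelSys_mem 𝒱)
    (export1_htriv 𝒱 hV) (export1_hH V) (export1_hcov V) f hf.1 hf.2 (fun _ => h)

theorem sh2_surj (hV : V ∈ 𝒱.mem) (hρ : Smooth ρ 𝒱) {x : ↥V × ↥V → A}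
    (hx : x ∈ Z2 (𝒱.sub V) (ρ.comp V.subtype)) :
    ∃ f ∈ Z2 𝒱 (coind (H ⧸ V) ρ), sh2 (k := k) V f = x := by
  have := export1_finite 𝒱 hV
  rw [SH.mem_Z2_iff, SH.sub_mem] at hx
  obtain ⟨f, h1, h2, h3⟩ := SH.shapiro_surj₂ (A := Rep.of ρ) (MulAction.toPermHom H (H ⧸ V))
    (fun _ : Unit => ((1 : H) : H ⧸ V)) (fun _ : Unit => V) (SH.levelSys_mem 𝒱)
    (export1_htriv 𝒱 hV) (export1_hH V) (export1_hcov V) (export1_hdisj V)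
    (fun _ => x) (fun _ => hx.1) (fun _ => hx.2)
  exact ⟨f, (SH.mem_Z2_iff _ 𝒱 f).2 ⟨h1, h2⟩, congrFun h3 ()⟩

end transitive

end Fermat.Agent.S55
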