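/-
S55-SH : EXPORTS part 2a (orbits): orbMap_equiv, orbPt_injective, orbPt_range_eq_iff, exists_orbit_reps.
Statements fixed by helper55 (module T).  `Export2.lean` (glue1, glue2) imports this file.
-/
import Fermat.Agent.S55.SH.Adapter
import Fermat.Agent.S55.SH.Exists

set_option autoImplicit false

namespace Fermat.Agent.S55

section semilocal

variable {k : Type} [CommRing k] {H G : Type} [Group H] [Group G] (r : H →* G)
variable (𝒱 : Lev H) (𝒰 : Lev G)
variable {A : Type} [AddCommGroup A] [Module k A] (ρ : Representation k G A)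
variable (U : Subgroup G) (hU : U.Normal)

/-- `orbMap` is `H`-equivariant -/
theorem orbMap_equiv (γ : G) (h : H) (f : G ⧸ U → A) :
    orbMap (k := k) r U hU γ (coind (G ⧸ U) ρ (r h) f) =
      coind (H ⧸ U.comap r) (ρ.comp r) h (orbMap (k := k) r U hU γ f) := by
  funext c
  induction c using QuotientGroup.induction_on with
  | H a =>
    show ρ (r h) (f ((r h)⁻¹ • ((r a * γ⁻¹ : G) : G ⧸ U))) =
      ρ (r h) (f (orbPt r U hU γ (h⁻¹ • (a : H ⧸ U.comap r))))
    congr 2
    show (((r h)⁻¹ * (r a * γ⁻¹) : G) : G ⧸ U) = ((r (h⁻¹ * a) * γ⁻¹ : G) : G ⧸ U)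
    rw [map_mul, map_inv, mul_assoc]

theorem Export2_orbPt_eq_iff (γ γ' : G) (a a' : H) :
    orbPt r U hU γ (a : H ⧸ U.comap r) = orbPt r U hU γ' (a' : H ⧸ U.comap r) ↔
      γ * r (a⁻¹ * a') * γ'⁻¹ ∈ U := by
  rw [orbPt_mk, orbPt_mk, QuotientGroup.eq]
  have h3 : (r a * γ⁻¹)⁻¹ * (r a' * γ'⁻¹) = γ * r (a⁻¹ * a') * γ'⁻¹ := by
    simp [mul_assoc]
  rw [h3]

theorem orbPt_injective (γ : G) : Function.Injective (orbPt r U hU γ) := by
  intro c c' h
  induction c using QuotientGroup.induction_on with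
  | H a =>
    induction c' using QuotientGroup.induction_on with
    | H a' =>
      rw [Export2_orbPt_eq_iff] at h
      rw [QuotientGroup.eq]
      show r (a⁻¹ * a') ∈ U
      have := hU.conj_mem _ h γ⁻¹
      simpa [mul_assoc] using this

/-- two points `γ⁻¹U`, `γ'⁻¹U` are in the same `H`-orbit iff `γ' ∈ U γ r(H)` -/
theorem orbPt_range_eq_iff (γ γ' : G) :
    Set.range (orbPt r U hU γ) = Set.range (orbPt r U hU γ') ↔
      ∃ u ∈ U, ∃ h : H, γ' = u * γ * r h := by
  constructor
  · intro h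
    have h1 : orbPt r U hU γ' ((1 : H) : H ⧸ U.comap r) ∈ Set.range (orbPt r U hU γ) := by
      rw [h]; exact ⟨_, rfl⟩
    obtain ⟨c, hc⟩ := h1
    induction c using QuotientGroup.induction_on with
    | H a =>
      rw [Export2_orbPt_eq_iff] at hc
      refine ⟨(γ * r (a⁻¹ * 1) * γ'⁻¹)⁻¹, U.inv_mem hc, a⁻¹, ?_⟩
      simp [mul_assoc]
  · rintro ⟨u, hu, h, rfl⟩
    have key : ∀ a : H, orbPt r U hU (u * γ * r h) (a : H ⧸ U.comap r) =
        orbPt r U hU γ ((a * h⁻¹ : H) : H ⧸ U.comap r) := by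
      intro a
      rw [eq_comm, Export2_orbPt_eq_iff]
      have : γ * r ((a * h⁻¹)⁻¹ * a) * (u * γ * r h)⁻¹ = u⁻¹ := by
        simp [mul_assoc]
      rw [this]
      exact U.inv_mem hu
    ext x
    constructor
    · rintro ⟨c, rfl⟩
      induction c using QuotientGroup.induction_on with
      | H a =>
        refine ⟨((a * h : H) : H ⧸ U.comap r), ?_⟩
        rw [key]
        simp
    · rintro ⟨c, rfl⟩
      induction c using QuotientGroup.induction_on with
      | H a => exact ⟨_, (key a).symm⟩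

/-- orbit decomposition of `G/U` under `H`: the number of orbits is `[G : U r(H)]`, every orbit is
a copy of `H/r⁻¹(U)`. -/
theorem exists_orbit_reps (hfin : U.FiniteIndex) :
    ∃ γ : Fin (U ⊔ r.range).index → G,
      Function.Bijective
        (fun p : Fin (U ⊔ r.range).index × (H ⧸ U.comap r) => orbPt r U hU (γ p.1) p.2) := by
  classical
  have hW : (U ⊔ r.range).FiniteIndex := Subgroup.finiteIndex_of_le (le_sup_left : U ≤ U ⊔ r.range)
  have : Finite (G ⧸ (U ⊔ r.range)) := Subgroup.finite_quotient_of_finiteIndex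
  let e : (G ⧸ (U ⊔ r.range)) ≃ Fin (U ⊔ r.range).index := Finite.equivFin _
  refine ⟨fun i => Quotient.out (e.symm i), ?_, ?_⟩
  · rintro ⟨i, c⟩ ⟨i', c'⟩ h
    have h' : orbPt r U hU (Quotient.out (e.symm i)) c = orbPt r U hU (Quotient.out (e.symm i')) c' := h
    have hi : i = i' := by
      induction c using QuotientGroup.induction_on with
      | H a =>
        induction c' using QuotientGroup.induction_on with
        | H a' =>
          rw [Export2_orbPt_eq_iff] at h'
          set γ := Quotient.out (e.symm i) with hγ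
          set γ' := Quotient.out (e.symm i') with hγ'
          have h1 : (γ : G ⧸ (U ⊔ r.range)) = (γ' : G ⧸ (U ⊔ r.range)) := by
            rw [QuotientGroup.eq]
            have e1 : γ⁻¹ * γ' = γ⁻¹ * (γ * r (a⁻¹ * a') * γ'⁻¹)⁻¹ * γ⁻¹⁻¹ * r (a⁻¹ * a') := by
              simp [mul_assoc]
            rw [e1]
            refine Subgroup.mul_mem _ ?_ ?_
            · exact (le_sup_left : U ≤ U ⊔ r.range) (hU.conj_mem _ (U.inv_mem h') γ⁻¹)
            · exact (le_sup_right : r.range ≤ U ⊔ r.range) ⟨_, rfl⟩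
          have h2 : e.symm i = e.symm i' := by
            have a1 : (γ : G ⧸ (U ⊔ r.range)) = e.symm i := Quotient.out_eq _
            have a2 : (γ' : G ⧸ (U ⊔ r.range)) = e.symm i' := Quotient.out_eq _
            rw [← a1, ← a2, h1]
          exact e.symm.injective h2
    subst hi
    rw [orbPt_injective r U hU _ h']
  · intro x
    induction x using QuotientGroup.induction_on with
    | H g =>
      set i := e ((g⁻¹ : G) : G ⧸ (U ⊔ r.range)) with hi
      set γ := Quotient.out (e.symm i) with hγ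
      have a1 : (γ : G ⧸ (U ⊔ r.range)) = ((g⁻¹ : G) : G ⧸ (U ⊔ r.range)) := by
        have : (γ : G ⧸ (U ⊔ r.range)) = e.symm i := Quotient.out_eq _
        rw [this, hi, Equiv.symm_apply_apply]
      rw [QuotientGroup.eq] at a1
      have a2 : γ⁻¹ * g⁻¹ ∈ ((U ⊔ r.range : Subgroup G) : Set G) := a1
      have := hU
      rw [Subgroup.normal_mul] at a2
      obtain ⟨u, hu, y, ⟨h, rfl⟩, huy⟩ := Set.mem_mul.mp a2
      refine ⟨(i, ((h⁻¹ : H) : H ⧸ U.comap r)), ?_⟩
      show orbPt r U hU γ ((h⁻¹ : H) : H ⧸ U.comap r) = (g : G ⧸ U)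
      rw [orbPt_mk, QuotientGroup.eq]
      have hg : g = (r h)⁻¹ * u⁻¹ * γ⁻¹ := by
        have : g⁻¹ = γ * (u * r h) := by rw [huy]; simp
        have h2 : g = (γ * (u * r h))⁻¹ := by rw [← this, inv_inv]
        rw [h2]; simp [mul_assoc]
      have e2 : (r h⁻¹ * γ⁻¹)⁻¹ * g = γ * u⁻¹ * γ⁻¹ := by
        rw [hg]; simp [mul_assoc]
      rw [e2]
      exact hU.conj_mem _ (U.inv_mem hu) γ

end semilocal

end Fermat.Agent.S55
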