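/-
S55-SH : EXPORTS of the Shapiro module in the language of `S55/Defs*.lean` (part 2: orbits, gluing).
Statements fixed by helper55 (module T).
-/
import Fermat.Agent.S55.SH.Adapter
import Fermat.Agent.S55.SH.Exists
import Fermat.Agent.S55.SH.Export2a

set_option autoImplicit false

namespace Fermat.Agent.S55

section semilocal

variable {k : Type} [CommRing k] {H G : Type} [Group H] [Group G] (r : H →* G)
variable (𝒱 : Lev H) (𝒰 : Lev G)
variable {A : Type} [AddCommGroup A] [Module k A] (ρ : Representation k G A)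
variable (U : Subgroup G) (hU : U.Normal)


omit [CommRing k] [AddCommGroup A] in
/-- `orbPt` is `H`-equivariant. -/
theorem Export2_orbPt_smul (γ : G) (h : H) (c : H ⧸ U.comap r) :
    orbPt r U hU γ (h • c) = r h • orbPt r U hU γ c := by
  induction c using QuotientGroup.induction_on with
  | H h' =>
    show orbPt r U hU γ ((h * h' : H) : H ⧸ U.comap r) = r h • ((r h' * γ⁻¹ : G) : G ⧸ U)
    rw [orbPt_mk, map_mul, mul_assoc]
    rfl

omit [CommRing k] [AddCommGroup A] in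
/-- coordinates on `G/U`: an orbit index constant on the `H`-orbits, and an equivariant coordinate
in `H/r⁻¹(U)`. -/
theorem Export2_exists_coord {J : Type} (γ : J → G)
    (hγ : Function.Surjective (fun p : J × (H ⧸ U.comap r) => orbPt r U hU (γ p.1) p.2)) :
    ∃ (idx : G ⧸ U → J) (c : G ⧸ U → H ⧸ U.comap r),
      (∀ x, orbPt r U hU (γ (idx x)) (c x) = x) ∧
      (∀ (h : H) x, idx ((r h)⁻¹ • x) = idx x) ∧
      (∀ (h : H) x, c ((r h)⁻¹ • x) = h⁻¹ • c x) := by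
  have hH : ∀ (j : J) (h : H), h ∈ U.comap r ↔
      ((MulAction.toPermHom G (G ⧸ U)).comp r) h (((γ j)⁻¹ : G) : G ⧸ U) =
        (((γ j)⁻¹ : G) : G ⧸ U) := by
    intro j h
    show r h ∈ U ↔ ((r h * (γ j)⁻¹ : G) : G ⧸ U) = (((γ j)⁻¹ : G) : G ⧸ U)
    rw [eq_comm, QuotientGroup.eq, inv_inv, ← mul_assoc]
    constructor
    · intro h1
      exact hU.conj_mem _ h1 _
    · intro h1
      have h2 := hU.conj_mem _ h1 (γ j)⁻¹
      have e : (γ j)⁻¹ * (γ j * r h * (γ j)⁻¹) * (γ j)⁻¹⁻¹ = r h := by group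
      rwa [e] at h2
  have hcov : ∀ x : G ⧸ U, ∃ (j : J) (h : H),
      ((MulAction.toPermHom G (G ⧸ U)).comp r) h (((γ j)⁻¹ : G) : G ⧸ U) = x := by
    intro x
    obtain ⟨⟨j, c⟩, rfl⟩ := hγ x
    induction c using QuotientGroup.induction_on with
    | H h => exact ⟨j, h, rfl⟩
  obtain ⟨σ⟩ := SH.Sec.exists_of_cover ((MulAction.toPermHom G (G ⧸ U)).comp r)
    (fun j => (((γ j)⁻¹ : G) : G ⧸ U)) (fun _ => U.comap r) hH hcov
  have hspec : ∀ x, orbPt r U hU (γ (σ.idx x)) ((σ.s x : H) : H ⧸ U.comap r) = x := σ.spec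
  have hidx : ∀ (h : H) x, σ.idx ((r h)⁻¹ • x) = σ.idx x := by
    intro h x
    have := σ.idx_act h⁻¹ x
    rw [← this]
    congr 1
    show (r h)⁻¹ • x = r h⁻¹ • x
    rw [map_inv]
  refine ⟨σ.idx, fun x => ((σ.s x : H) : H ⧸ U.comap r), hspec, hidx, fun h x => ?_⟩
  apply orbPt_injective r U hU (γ (σ.idx x))
  rw [Export2_orbPt_smul, hspec, map_inv]
  have := hspec ((r h)⁻¹ • x)
  rw [hidx] at this
  exact this

/-- a 1-cocycle of `H` in `Map(G/U,A)` is a coboundary if all its orbit components are -/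
theorem glue1 {J : Type} (γ : J → G)
    (hγ : Function.Surjective (fun p : J × (H ⧸ U.comap r) => orbPt r U hU (γ p.1) p.2))
    {f : H → (G ⧸ U → A)} (hf : f ∈ Z1 𝒱 ((coind (G ⧸ U) ρ).comp r))
    (h : ∀ j, push (orbMap (k := k) r U hU (γ j)) f ∈ B1 (coind (H ⧸ U.comap r) (ρ.comp r))) :
    f ∈ B1 ((coind (G ⧸ U) ρ).comp r) := by
  obtain ⟨idx, c, hspec, hidx, hc⟩ := Export2_exists_coord r U hU γ hγ
  choose b hb using h
  refine ⟨fun x => b (idx x) (c x), ?_⟩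
  funext g x
  have h1 := congrFun (congrFun (hb (idx x)) g) (c x)
  rw [push_apply, orbMap_apply, hspec] at h1
  rw [← h1]
  show ρ (r g) (b (idx ((r g)⁻¹ • x)) (c ((r g)⁻¹ • x))) - b (idx x) (c x) =
    ρ (r g) (b (idx x) (g⁻¹ • c x)) - b (idx x) (c x)
  rw [hidx, hc]

/-- a 2-cocycle of `H` in `Map(G/U,A)` is a coboundary if all its orbit components are -/
theorem glue2 (hfin : U.FiniteIndex) {J : Type} (γ : J → G)
    (hγ : Function.Surjective (fun p : J × (H ⧸ U.comap r) => orbPt r U hU (γ p.1) p.2))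
    {f : H × H → (G ⧸ U → A)} (hf : f ∈ Z2 𝒱 ((coind (G ⧸ U) ρ).comp r))
    (h : ∀ j, push (orbMap (k := k) r U hU (γ j)) f ∈ B2 𝒱 (coind (H ⧸ U.comap r) (ρ.comp r))) :
    f ∈ B2 𝒱 ((coind (G ⧸ U) ρ).comp r) := by
  obtain ⟨idx, c, hspec, hidx, hc⟩ := Export2_exists_coord r U hU γ hγ
  choose z hzL hz using h
  have hfinX : Finite (G ⧸ U) := Subgroup.finite_quotient_of_finiteIndex
  choose W hW hWz using hzL
  obtain ⟨W₀, hW₀, -, hle⟩ := (SH.levelSys_mem 𝒱).exists_normal_le_finite 𝒱.nonempty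
    (fun x : G ⧸ U => W (idx x)) (fun x => hW (idx x))
  refine ⟨fun g x => z (idx x) g (c x), ⟨W₀, hW₀, fun g s hs => ?_⟩, ?_⟩
  · funext x
    exact congrFun (hWz (idx x) g s (hle x hs)) (c x)
  · funext ⟨g₁, g₂⟩ x
    have h1 := congrFun (congrFun (hz (idx x)) (g₁, g₂)) (c x)
    rw [push_apply, orbMap_apply, hspec] at h1
    rw [← h1]
    show ρ (r g₁) (z (idx ((r g₁)⁻¹ • x)) g₂ (c ((r g₁)⁻¹ • x))) - z (idx x) (g₁ * g₂) (c x)
        + z (idx x) g₁ (c x) =
      ρ (r g₁) (z (idx x) g₂ (g₁⁻¹ • c x)) - z (idx x) (g₁ * g₂) (c x) + z (idx x) g₁ (c x)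
    rw [hidx, hc]

end semilocal

end Fermat.Agent.S55
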