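/-
S55-SH : EXPORTS of the Shapiro module in the language of `S55/Defs*.lean` (part 3: place compatibility).
Statements fixed by helper55 (module T).
-/
import Fermat.Agent.S55.SH.Adapter

set_option autoImplicit false

namespace Fermat.Agent.S55

section semilocal

variable {k : Type} [CommRing k] {H G : Type} [Group H] [Group G] (r : H →* G)
variable (𝒱 : Lev H) (𝒰 : Lev G)
variable {A : Type} [AddCommGroup A] [Module k A] (ρ : Representation k G A)
variable (U : Subgroup G) (hU : U.Normal)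

/-- PLACE COMPATIBILITY (conjugation acts trivially on cohomology): for a global cocycle `y` with
values in `Map(G/U,A)` (`A` trivial on `U`), the pull-back of the Shapiro image `sh2 U y` along
`h ↦ γ r(h) γ⁻¹` is cohomologous to `ρ(γ)` applied to the Shapiro image of the component of
`res_r y` on the orbit of `γ⁻¹U`. -/
theorem place_compat2 (hcompat : ∀ W ∈ 𝒰.mem, W.comap r ∈ 𝒱.mem) (hUmem : U ∈ 𝒰.mem)
    (hρ : ∀ u ∈ U, ρ u = 1) (γ : G) {y : G × G → (G ⧸ U → A)}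
    (hy : y ∈ Z2 𝒰 (coind (G ⧸ U) ρ)) :
    res2 (k := k) (conjRes r U hU γ) (sh2 (k := k) U y) -
      push (ρ γ) (sh2 (k := k) (U.comap r) (push (orbMap (k := k) r U hU γ) (res2 (k := k) r y)))
      ∈ B2 (𝒱.sub (U.comap r)) (1 : Representation k ↥(U.comap r) A) := by
  obtain ⟨hyc, W₀, hW₀, hyW₀⟩ := (SH.mem_Z2_iff (coind (G ⧸ U) ρ) 𝒰 y).1 hy
  obtain ⟨W, hW, hWle, hWn⟩ := 𝒰.normal W₀ hW₀
  have hyW : SH.RInv₂ W y := hyW₀.mono hWle
  set a : G →* Equiv.Perm (G ⧸ U) := MulAction.toPermHom G (G ⧸ U) with ha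
  set x₀ : G ⧸ U := ((1 : G) : G ⧸ U) with hx₀
  have hyc' : y ∈ groupCohomology.cocycles₂ (SH.Coind a (Rep.of ρ)) := hyc
  set κ : G → A := SH.conjKap (A := Rep.of ρ) a y γ⁻¹ x₀ with hκ
  have hκW : SH.RInv₁ W κ := SH.rinv_conjKap (A := Rep.of ρ) y hyW γ⁻¹ x₀
  have hpt : a γ⁻¹ x₀ = ((γ⁻¹ : G) : G ⧸ U) := by
    change ((γ⁻¹ * 1 : G) : G ⧸ U) = _
    rw [mul_one]
  have hfix : ∀ g ∈ U, a g (a γ⁻¹ x₀) = a γ⁻¹ x₀ := by
    intro g hg
    rw [hpt]
    change ((g * γ⁻¹ : G) : G ⧸ U) = _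
    rw [QuotientGroup.eq]
    have := hU.conj_mem _ (U.inv_mem hg) γ
    simpa [mul_assoc] using this
  refine ⟨fun δ => - ρ γ (κ (r δ)), ?_, ?_⟩
  · refine ⟨(W.comap r).comap (U.comap r).subtype, ⟨W.comap r, hcompat W hW, rfl⟩, ?_⟩
    intro g s hs
    have : κ (r (g : H) * r (s : H)) = κ (r (g : H)) := hκW _ _ hs
    simp only [Subgroup.coe_mul, map_mul, this]
  · ext ⟨δ₁, δ₂⟩
    have h1 := SH.conj_formula₂ (A := Rep.of ρ) y hyc' γ⁻¹ x₀ (r δ₁) (r δ₂) (hfix _ δ₁.2)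
    have h2 := congrArg (ρ γ) h1
    have hone : (Rep.of ρ).ρ (r δ₁) = 1 := hρ _ δ₁.2
    have hcancel : ∀ v : A, ρ γ ((Rep.of ρ).ρ γ⁻¹ v) = v := by
      intro v
      change ρ γ (ρ γ⁻¹ v) = v
      rw [← Module.End.mul_apply, ← map_mul, mul_inv_cancel, map_one, Module.End.one_apply]
    rw [hone, map_add, hcancel, inv_inv, hpt, ← hκ, Module.End.one_apply, map_add, map_sub] at h2
    have e1 : (res2 (k := k) (conjRes r U hU γ) (sh2 (k := k) U y)) (δ₁, δ₂)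
        = y (γ * r δ₁ * γ⁻¹, γ * r δ₂ * γ⁻¹) x₀ := rfl
    have e2 : (push (ρ γ) (sh2 (k := k) (U.comap r)
        (push (orbMap (k := k) r U hU γ) (res2 (k := k) r y)))) (δ₁, δ₂)
        = ρ γ (y (r δ₁, r δ₂) ((γ⁻¹ : G) : G ⧸ U)) := by
      simp only [push_apply, sh2_apply, res2_apply, orbMap_apply, orbPt_mk, map_one, one_mul]
    rw [Pi.sub_apply, e1, e2, h2]
    have hone' : ∀ v : A, (1 : Representation k ↥(U.comap r) A) δ₁ v = v := fun v => rfl
    simp only [d1_apply, Subgroup.coe_mul, map_mul, hone']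
    abel

end semilocal

end Fermat.Agent.S55
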