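/-
S55-SH : EXPORTS of the Shapiro module in the language of `S55/Defs*.lean` (what module T uses).
-/
import Fermat.Agent.S55.SH.Export1
import Fermat.Agent.S55.SH.Export2
import Fermat.Agent.S55.SH.Export3
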