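/-
S55-SH : "places".  `X` a finite transitive `G`-set with base point `t₀`, stabiliser `H`;
`r : Γ →* G` (a decomposition group).  The restriction to `Γ` of a class in `Hⁿ(G, Map(X, A))`
vanishes iff, for every `γ : G`, the pull-back of its Shapiro image `sh F = (F | H)(t₀)` along
`δ ↦ γ r(δ) γ⁻¹ : (conj γ ∘ r)⁻¹ H → H` vanishes.
-/
import Fermat.Agent.S55.SH.LC
import Fermat.Agent.S55.SH.Conj

set_option autoImplicit false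

namespace Fermat.Agent.S55.SH

open groupCohomology CategoryTheory

universe u

variable {k G Γ : Type u} [CommRing k] [Group G] [Group Γ] {X : Type u}
variable (a : G →* Equiv.Perm X) {A : Rep k G} {𝒰 : Set (Subgroup G)}

/-- `δ ↦ γ r(δ) γ⁻¹`. -/
def conjHom (r : Γ →* G) (γ : G) : Γ →* G := (MulAut.conj γ).toMonoidHom.comp r

@[simp] lemma conjHom_apply (r : Γ →* G) (γ : G) (δ : Γ) : conjHom r γ δ = γ * r δ * γ⁻¹ := rfl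

/-- the "decomposition group" of the place `γ` : `{δ | γ r(δ) γ⁻¹ ∈ H}`. -/
def placeSub (r : Γ →* G) (γ : G) (H : Subgroup G) : Subgroup Γ := H.comap (conjHom r γ)

/-- `placeSub r γ H` is the stabiliser in `Γ` of the point `γ⁻¹ t₀`. -/
theorem mem_placeSub_iff (r : Γ →* G) (γ : G) (H : Subgroup G) (t₀ : X)
    (hH : ∀ g, g ∈ H ↔ a g t₀ = t₀) (δ : Γ) :
    δ ∈ placeSub r γ H ↔ (a.comp r) δ (a γ⁻¹ t₀) = a γ⁻¹ t₀ := by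
  show conjHom r γ δ ∈ H ↔ _
  rw [hH, conjHom_apply, map_mul, map_mul, Equiv.Perm.mul_apply, Equiv.Perm.mul_apply,
    MonoidHom.comp_apply, map_inv, ← Equiv.Perm.eq_inv_iff_eq]

/-- degree 1. -/
theorem loc_trivial_iff₁ (r : Γ →* G) (H : Subgroup G) (t₀ : X)
    (hH : ∀ g, g ∈ H ↔ a g t₀ = t₀) (htrans : ∀ x, ∃ g, a g t₀ = x)
    (f : G → X → A) (hf : f ∈ cocycles₁ (Coind a A)) :
    (∃ φ : X → A, (d₀₁ (Rep.res r (Coind a A))).hom φ = pull₁ r f) ↔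
      ∀ γ : G, ∃ c : A, ∀ δ ∈ placeSub r γ H,
        f (conjHom r γ δ) t₀ = A.ρ (conjHom r γ δ) c - c := by
  -- the conjugation formula at the point `γ⁻¹ t₀`
  have key : ∀ (γ : G) (δ : Γ), δ ∈ placeSub r γ H →
      f (r δ) (a γ⁻¹ t₀) = A.ρ γ⁻¹ (f (conjHom r γ δ) t₀)
        - (A.ρ (r δ) (f γ⁻¹ (a γ⁻¹ t₀)) - f γ⁻¹ (a γ⁻¹ t₀)) := by
    intro γ δ hδ
    have h := conj_formula₁ f hf γ⁻¹ t₀ (r δ) ((mem_placeSub_iff a r γ H t₀ hH δ).mp hδ)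
    rw [inv_inv] at h
    exact h
  constructor
  · rintro ⟨φ, hφ⟩ γ
    refine ⟨A.ρ γ (φ (a γ⁻¹ t₀) + f γ⁻¹ (a γ⁻¹ t₀)), fun δ hδ => ?_⟩
    have h1 : f (r δ) (a γ⁻¹ t₀) = A.ρ (r δ) (φ (a γ⁻¹ t₀)) - φ (a γ⁻¹ t₀) := by
      have h2 := congrFun (congrFun hφ δ) (a γ⁻¹ t₀)
      have h3 : (a (r δ))⁻¹ (a γ⁻¹ t₀) = a γ⁻¹ t₀ := by
        rw [Equiv.Perm.inv_eq_iff_eq]
        exact ((mem_placeSub_iff a r γ H t₀ hH δ).mp hδ).symm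
      rw [d₀₁_hom_apply] at h2
      change A.ρ (r δ) (φ ((a (r δ))⁻¹ (a γ⁻¹ t₀))) - φ (a γ⁻¹ t₀) = f (r δ) (a γ⁻¹ t₀) at h2
      rw [h3] at h2
      exact h2.symm
    have h4 := key γ δ hδ
    rw [h1] at h4
    have h5 : A.ρ γ⁻¹ (f (conjHom r γ δ) t₀) =
        A.ρ (r δ) (φ (a γ⁻¹ t₀) + f γ⁻¹ (a γ⁻¹ t₀)) - (φ (a γ⁻¹ t₀) + f γ⁻¹ (a γ⁻¹ t₀)) := by
      rw [map_add, eq_add_of_sub_eq h4.symm]
      abel
    have h6 := congrArg (A.ρ γ) h5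
    rw [← Module.End.mul_apply, ← map_mul, mul_inv_cancel, map_one, Module.End.one_apply,
      map_sub, ← Module.End.mul_apply, ← map_mul] at h6
    rw [h6, conjHom_apply, ← Module.End.mul_apply (A.ρ (γ * r δ * γ⁻¹)), ← map_mul,
      inv_mul_cancel_right]
  · intro h
    refine shapiro_inj₁ (a.comp r) (A := Rep.res r A) (fun γ : G => a γ⁻¹ t₀)
      (fun γ => placeSub r γ H) (fun γ δ => mem_placeSub_iff a r γ H t₀ hH δ) ?_ (pull₁ r f)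
      (pull₁_mem_cocycles₁ r (Coind a A) f hf) ?_
    · intro x
      obtain ⟨g, rfl⟩ := htrans x
      exact ⟨g⁻¹, 1, by simp⟩
    · intro γ
      obtain ⟨c, hc⟩ := h γ
      refine ⟨A.ρ γ⁻¹ c - f γ⁻¹ (a γ⁻¹ t₀), fun δ => ?_⟩
      change f (r δ) (a γ⁻¹ t₀) = A.ρ (r δ) (A.ρ γ⁻¹ c - f γ⁻¹ (a γ⁻¹ t₀)) -
        (A.ρ γ⁻¹ c - f γ⁻¹ (a γ⁻¹ t₀))
      rw [key γ δ δ.2, hc δ δ.2, map_sub, map_sub, ← Module.End.mul_apply, ← map_mul,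
        ← Module.End.mul_apply, ← map_mul, conjHom_apply]
      have e : γ⁻¹ * (γ * r δ * γ⁻¹) = r δ * γ⁻¹ := by group
      rw [e]
      abel

lemma Places_isLC_comp₂ {G' : Type*} [Group G'] {𝒱 : Set (Subgroup G')} (h : LevelSys 𝒱)
    {Y Y' Z : Type*} {f : G' → Y} {f' : G' → Y'} (hf : IsLC₁ 𝒱 f) (hf' : IsLC₁ 𝒱 f')
    (φ : Y → Y' → Z) : IsLC₁ 𝒱 (fun g => φ (f g) (f' g)) := by
  obtain ⟨U, hU, h1⟩ := hf
  obtain ⟨V, hV, h2⟩ := hf'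
  obtain ⟨W, hW, hle⟩ := h.inter U hU V hV
  exact ⟨W, hW, fun g u hu => by
    show φ (f (g * u)) (f' (g * u)) = φ (f g) (f' g)
    rw [h1 g u (hle hu).1, h2 g u (hle hu).2]⟩

lemma Places_comapLev_comapLev {Γ' : Type*} [Group Γ'] (r : Γ →* G) (s : Γ' →* Γ)
    (𝒰 : Set (Subgroup G)) : comapLev s (comapLev r 𝒰) = comapLev (r.comp s) 𝒰 := by
  unfold comapLev
  rw [Set.image_image]
  simp only [Subgroup.comap_comap]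

/-- degree 2, level-constant cochains. Levels on `Γ` are `comapLev r 𝒰`, levels on the subgroup
`placeSub r γ H` are `comapLev (r.comp (placeSub r γ H).subtype) 𝒰`. -/
theorem loc_trivial_iff₂ [Finite X] (h𝒰 : LevelSys 𝒰) (htriv : ∃ U ∈ 𝒰, ∀ u ∈ U, a u = 1)
    (r : Γ →* G) (H : Subgroup G) (t₀ : X)
    (hH : ∀ g, g ∈ H ↔ a g t₀ = t₀) (htrans : ∀ x, ∃ g, a g t₀ = x)
    (F : G × G → X → A) (hF : F ∈ cocycles₂ (Coind a A)) (hFL : IsLC₂ 𝒰 F) :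
    (∃ z : Γ → X → A, IsLC₁ (comapLev r 𝒰) z ∧
        (d₁₂ (Rep.res r (Coind a A))).hom z = pull₂ r F) ↔
      ∀ γ : G, ∃ y : placeSub r γ H → A,
        IsLC₁ (comapLev (r.comp (placeSub r γ H).subtype) 𝒰) y ∧
        ∀ δ₁ δ₂ : placeSub r γ H,
          F (conjHom r γ δ₁, conjHom r γ δ₂) t₀ =
            A.ρ (conjHom r γ δ₁) (y δ₂) - y (δ₁ * δ₂) + y δ₁ := by
  have key : ∀ (γ : G) (δ₁ δ₂ : Γ), δ₁ ∈ placeSub r γ H →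
      F (r δ₁, r δ₂) (a γ⁻¹ t₀) = A.ρ γ⁻¹ (F (conjHom r γ δ₁, conjHom r γ δ₂) t₀)
        + (A.ρ (r δ₁) (conjKap a F γ⁻¹ t₀ (r δ₂)) - conjKap a F γ⁻¹ t₀ (r (δ₁ * δ₂))
          + conjKap a F γ⁻¹ t₀ (r δ₁)) := by
    intro γ δ₁ δ₂ hδ
    have h := conj_formula₂ F hF γ⁻¹ t₀ (r δ₁) (r δ₂)
      ((mem_placeSub_iff a r γ H t₀ hH δ₁).mp hδ)
    rw [inv_inv, ← map_mul] at h
    exact h
  have hKLC : ∀ γ : G, IsLC₁ (comapLev (r.comp (placeSub r γ H).subtype) 𝒰)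
      (fun δ : placeSub r γ H => conjKap a F γ⁻¹ t₀ (r δ)) := by
    intro γ
    obtain ⟨U, hU, hFU⟩ := hFL
    obtain ⟨W, hW, hWn, hle⟩ := h𝒰.normal U hU
    have h1 : IsLC₁ 𝒰 (conjKap a F γ⁻¹ t₀) := ⟨W, hW, rinv_conjKap F (hFU.mono hle) γ⁻¹ t₀⟩
    exact h1.precomp (r.comp (placeSub r γ H).subtype)
  constructor
  · rintro ⟨z, hzL, hz⟩ γ
    have hzL' : IsLC₁ (comapLev (r.comp (placeSub r γ H).subtype) 𝒰)
        (fun δ : placeSub r γ H => z δ (a γ⁻¹ t₀)) := by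
      have h1 := (hzL.comp (fun φ : X → A => φ (a γ⁻¹ t₀))).precomp (placeSub r γ H).subtype
      rw [Places_comapLev_comapLev] at h1
      exact h1
    refine ⟨fun δ => A.ρ γ (z δ (a γ⁻¹ t₀) - conjKap a F γ⁻¹ t₀ (r δ)),
      Places_isLC_comp₂ (h𝒰.comap _) hzL' (hKLC γ) (fun x y => A.ρ γ (x - y)), fun δ₁ δ₂ => ?_⟩
    have h1 : F (r δ₁, r δ₂) (a γ⁻¹ t₀) = A.ρ (r δ₁) (z δ₂ (a γ⁻¹ t₀))
        - z (δ₁ * δ₂) (a γ⁻¹ t₀) + z δ₁ (a γ⁻¹ t₀) := by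
      have h2 := congrFun (congrFun hz ((δ₁ : Γ), (δ₂ : Γ))) (a γ⁻¹ t₀)
      have h3 : (a (r δ₁))⁻¹ (a γ⁻¹ t₀) = a γ⁻¹ t₀ := by
        rw [Equiv.Perm.inv_eq_iff_eq]
        exact ((mem_placeSub_iff a r γ H t₀ hH δ₁).mp δ₁.2).symm
      rw [d₁₂_hom_apply] at h2
      change A.ρ (r δ₁) (z δ₂ ((a (r δ₁))⁻¹ (a γ⁻¹ t₀))) - z (δ₁ * δ₂) (a γ⁻¹ t₀)
        + z δ₁ (a γ⁻¹ t₀) = F (r δ₁, r δ₂) (a γ⁻¹ t₀) at h2
      rw [h3] at h2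
      exact h2.symm
    have h4 := key γ δ₁ δ₂ δ₁.2
    rw [h1] at h4
    have h5 : A.ρ γ⁻¹ (F (conjHom r γ δ₁, conjHom r γ δ₂) t₀) =
        A.ρ (r δ₁) (z δ₂ (a γ⁻¹ t₀) - conjKap a F γ⁻¹ t₀ (r δ₂))
        - (z (δ₁ * δ₂) (a γ⁻¹ t₀) - conjKap a F γ⁻¹ t₀ (r (δ₁ * δ₂)))
        + (z δ₁ (a γ⁻¹ t₀) - conjKap a F γ⁻¹ t₀ (r δ₁)) := by
      rw [map_sub, eq_sub_of_add_eq h4.symm]
      abel
    have h6 := congrArg (A.ρ γ) h5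
    rw [← Module.End.mul_apply, ← map_mul, mul_inv_cancel, map_one, Module.End.one_apply,
      map_add, map_sub, ← Module.End.mul_apply, ← map_mul] at h6
    rw [h6, conjHom_apply, ← Module.End.mul_apply (A.ρ (γ * r δ₁ * γ⁻¹)), ← map_mul,
      inv_mul_cancel_right]
    rfl
  · intro h
    obtain ⟨U₀, hU₀, htr⟩ := htriv
    refine shapiro_inj₂ (a.comp r) (A := Rep.res r A) (𝒰 := comapLev r 𝒰)
      (fun γ : G => a γ⁻¹ t₀) (fun γ => placeSub r γ H) (h𝒰.comap r)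
      ⟨_, ⟨U₀, hU₀, rfl⟩, fun u hu => htr _ hu⟩
      (fun γ δ => mem_placeSub_iff a r γ H t₀ hH δ) ?_ (pull₂ r F)
      (pull₂_mem_cocycles₂ r (Coind a A) F hF) (isLC_pull₂ r F hFL) ?_
    · intro x
      obtain ⟨g, rfl⟩ := htrans x
      exact ⟨g⁻¹, 1, by simp⟩
    · intro γ
      obtain ⟨y, hyL, hy⟩ := h γ
      refine ⟨fun δ => A.ρ γ⁻¹ (y δ) + conjKap a F γ⁻¹ t₀ (r δ), ?_, ?_⟩
      · rw [Places_comapLev_comapLev]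
        exact Places_isLC_comp₂ (h𝒰.comap _) hyL (hKLC γ) (fun x y => A.ρ γ⁻¹ x + y)
      · funext ⟨δ₁, δ₂⟩
        rw [d₁₂_hom_apply]
        change A.ρ (r δ₁) (A.ρ γ⁻¹ (y δ₂) + conjKap a F γ⁻¹ t₀ (r δ₂))
          - (A.ρ γ⁻¹ (y (δ₁ * δ₂)) + conjKap a F γ⁻¹ t₀ (r (δ₁ * δ₂)))
          + (A.ρ γ⁻¹ (y δ₁) + conjKap a F γ⁻¹ t₀ (r δ₁)) = F (r δ₁, r δ₂) (a γ⁻¹ t₀)
        rw [key γ δ₁ δ₂ δ₁.2, hy δ₁ δ₂, map_add, map_add, map_sub, ← Module.End.mul_apply,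
          ← map_mul, ← Module.End.mul_apply, ← map_mul, conjHom_apply]
        have e : γ⁻¹ * (γ * r δ₁ * γ⁻¹) = r δ₁ * γ⁻¹ := by group
        rw [e]
        abel

end Fermat.Agent.S55.SH
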