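/-
S55-SH : the case `X = G ⧸ H` (`Ind H A = Map(G/H, A)`), one subgroup, in final form.
`sh₀/sh₁/sh₂` = (restrict to `H`, evaluate at the base coset).
-/
import Fermat.Agent.S55.SH.LC
import Fermat.Agent.S55.SH.Places

set_option autoImplicit false

namespace Fermat.Agent.S55.SH

open groupCohomology CategoryTheory

universe u

variable {k G Γ : Type u} [CommRing k] [Group G] [Group Γ]
variable (H : Subgroup G) {A : Rep k G} {𝒰 : Set (Subgroup G)}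

/-- the action of `G` on `G ⧸ H`. -/
def permQ : G →* Equiv.Perm (G ⧸ H) := MulAction.toPermHom G (G ⧸ H)

/-- `Map(G/H, A)`, `(g φ)(x) = g φ(g⁻¹ x)`. -/
abbrev Ind (A : Rep k G) : Rep k G := Coind (permQ H) A

/-- the base coset. -/
def baseQ : G ⧸ H := ((1 : G) : G ⧸ H)

lemma permQ_apply (g : G) (x : G ⧸ H) : permQ H g x = g • x := rfl

lemma Ind_ρ_apply (g : G) (φ : G ⧸ H → A) (x : G ⧸ H) :
    (Ind H A).ρ g φ x = A.ρ g (φ (g⁻¹ • x)) := by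
  rw [Coind_ρ_apply, ← map_inv]
  rfl

theorem mem_iff_permQ_baseQ (g : G) : g ∈ H ↔ permQ H g (baseQ H) = baseQ H := by
  have h1 : permQ H g (baseQ H) = ((g * 1 : G) : G ⧸ H) := rfl
  rw [h1, baseQ, QuotientGroup.eq]
  simp

theorem permQ_trans (x : G ⧸ H) : ∃ g, permQ H g (baseQ H) = x := by
  induction x using QuotientGroup.induction_on with
  | H g =>
    refine ⟨g, ?_⟩
    have h1 : permQ H g (baseQ H) = ((g * 1 : G) : G ⧸ H) := rfl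
    rw [h1, mul_one]

theorem permQ_eq_one_of_normal_le {U : Subgroup G} [U.Normal] (hU : U ≤ H) :
    ∀ u ∈ U, permQ H u = 1 := by
  intro u hu
  ext x
  induction x using QuotientGroup.induction_on with
  | H g =>
    have h1 : permQ H u (g : G ⧸ H) = ((u * g : G) : G ⧸ H) := rfl
    rw [h1, Equiv.Perm.one_apply, QuotientGroup.eq]
    apply hU
    have h2 := ‹U.Normal›.conj_mem u⁻¹ (U.inv_mem hu) g⁻¹
    have e : (u * g)⁻¹ * g = g⁻¹ * u⁻¹ * g⁻¹⁻¹ := by group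
    rw [e]
    exact h2

theorem exists_level_permQ_eq_one (h𝒰 : LevelSys 𝒰) (hopen : ∃ U ∈ 𝒰, U ≤ H) :
    ∃ U ∈ 𝒰, ∀ u ∈ U, permQ H u = 1 := by
  obtain ⟨U, hU, hle⟩ := hopen
  obtain ⟨W, hW, hn, hle'⟩ := h𝒰.normal U hU
  exact ⟨W, hW, permQ_eq_one_of_normal_le H (hle'.trans hle)⟩

theorem quot_hH : ∀ (_ : Unit) (g : G), g ∈ H ↔ permQ H g (baseQ H) = baseQ H :=
  fun _ g => mem_iff_permQ_baseQ H g

theorem quot_hcov : ∀ x : G ⧸ H, ∃ (_ : Unit) (g : G), permQ H g (baseQ H) = x :=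
  fun x => ⟨(), permQ_trans H x⟩

theorem quot_sec : Nonempty (Sec (permQ H) (fun _ : Unit => baseQ H) (fun _ => H)) :=
  Sec.exists_of_cover (permQ H) (fun _ : Unit => baseQ H) (fun _ => H) (quot_hH H) (quot_hcov H)

/-- Shapiro maps. -/
def sh₀ (φ : G ⧸ H → A) : A := φ (baseQ H)
def sh₁ (f : G → G ⧸ H → A) : H → A := fun h => f h (baseQ H)
def sh₂ (F : G × G → G ⧸ H → A) : H × H → A := fun p => F (p.1, p.2) (baseQ H)

theorem sh₁_d₀₁ (φ : G ⧸ H → A) :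
    sh₁ H ((d₀₁ (Ind H A)).hom φ) = (d₀₁ (Rep.res H.subtype A)).hom (sh₀ H φ) := by
  obtain ⟨σ⟩ := quot_sec H
  exact congrFun (σ.ev₁_d₀₁ (A := A) φ) ()

theorem sh₂_d₁₂ (f : G → G ⧸ H → A) :
    sh₂ H ((d₁₂ (Ind H A)).hom f) = (d₁₂ (Rep.res H.subtype A)).hom (sh₁ H f) := by
  obtain ⟨σ⟩ := quot_sec H
  exact congrFun (σ.ev₂_d₁₂ (A := A) f) ()

theorem sh₀_mem_invariants (φ : G ⧸ H → A) (hφ : ∀ g, (Ind H A).ρ g φ = φ) :
    ∀ h ∈ H, A.ρ h (sh₀ H φ) = sh₀ H φ := by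
  intro h hh
  have h1 := congrFun (hφ h) (baseQ H)
  rw [Coind_ρ_apply] at h1
  have h2 : (permQ H h)⁻¹ (baseQ H) = baseQ H := by
    rw [Equiv.Perm.inv_eq_iff_eq]
    exact ((mem_iff_permQ_baseQ H h).1 hh).symm
  rw [h2] at h1
  exact h1

theorem sh₁_mem_cocycles₁ (f : G → G ⧸ H → A) (hf : f ∈ cocycles₁ (Ind H A)) :
    sh₁ H f ∈ cocycles₁ (Rep.res H.subtype A) := by
  obtain ⟨σ⟩ := quot_sec H
  exact σ.ev₁_mem_cocycles₁ f hf ()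

theorem sh₂_mem_cocycles₂ (F : G × G → G ⧸ H → A) (hF : F ∈ cocycles₂ (Ind H A)) :
    sh₂ H F ∈ cocycles₂ (Rep.res H.subtype A) := by
  obtain ⟨σ⟩ := quot_sec H
  exact σ.ev₂_mem_cocycles₂ F hF ()

theorem isLC_sh₁ (f : G → G ⧸ H → A) (hf : IsLC₁ 𝒰 f) :
    IsLC₁ (comapLev H.subtype 𝒰) (sh₁ H f) := by
  exact isLC_ev₁ (fun _ : Unit => baseQ H) (fun _ => H) f hf ()

theorem isLC_sh₂ (F : G × G → G ⧸ H → A) (hF : IsLC₂ 𝒰 F) :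
    IsLC₂ (comapLev H.subtype 𝒰) (sh₂ H F) := by
  exact isLC_ev₂ (fun _ : Unit => baseQ H) (fun _ => H) F hF ()

/-! ### bijectivity -/

theorem sh₀_inj (φ : G ⧸ H → A) (hφ : ∀ g, (Ind H A).ρ g φ = φ) (h0 : sh₀ H φ = 0) : φ = 0 := by
  exact shapiro_inj₀ (permQ H) (fun _ : Unit => baseQ H) (quot_hcov H) φ hφ (fun _ => h0)

theorem sh₀_surj (c : A) (hc : ∀ h ∈ H, A.ρ h c = c) :
    ∃ φ : G ⧸ H → A, (∀ g, (Ind H A).ρ g φ = φ) ∧ sh₀ H φ = c := by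
  obtain ⟨φ, h1, h2⟩ := shapiro_surj₀ (permQ H) (fun _ : Unit => baseQ H) (fun _ => H)
    (quot_hH H) (quot_hcov H) (fun _ _ _ _ => rfl) (fun _ => c) (fun _ => hc)
  exact ⟨φ, h1, h2 ()⟩

theorem sh₁_inj (f : G → G ⧸ H → A) (hf : f ∈ cocycles₁ (Ind H A)) (c : A)
    (hc : (d₀₁ (Rep.res H.subtype A)).hom c = sh₁ H f) :
    ∃ φ : G ⧸ H → A, (d₀₁ (Ind H A)).hom φ = f := by
  refine shapiro_inj₁ (permQ H) (fun _ : Unit => baseQ H) (fun _ => H)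
    (quot_hH H) (quot_hcov H) f hf (fun _ => ⟨c, fun h => ?_⟩)
  exact (congrFun hc h).symm

theorem sh₁_surj [Finite (G ⧸ H)] (h𝒰 : LevelSys 𝒰) (hopen : ∃ U ∈ 𝒰, U ≤ H)
    (ψ : H → A) (hψ : ψ ∈ cocycles₁ (Rep.res H.subtype A))
    (hψL : IsLC₁ (comapLev H.subtype 𝒰) ψ) :
    ∃ f : G → G ⧸ H → A, f ∈ cocycles₁ (Ind H A) ∧ IsLC₁ 𝒰 f ∧ sh₁ H f = ψ := by
  obtain ⟨f, h1, h2, h3⟩ := shapiro_surj₁ (permQ H) (fun _ : Unit => baseQ H) (fun _ => H) h𝒰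
    (exists_level_permQ_eq_one H h𝒰 hopen) (quot_hH H) (quot_hcov H) (fun _ _ _ _ => rfl)
    (fun _ => ψ) (fun _ => hψ) (fun _ => hψL)
  exact ⟨f, h1, h2, congrFun h3 ()⟩

theorem sh₂_inj [Finite (G ⧸ H)] (h𝒰 : LevelSys 𝒰) (hopen : ∃ U ∈ 𝒰, U ≤ H)
    (F : G × G → G ⧸ H → A) (hF : F ∈ cocycles₂ (Ind H A)) (hFL : IsLC₂ 𝒰 F)
    (y : H → A) (hyL : IsLC₁ (comapLev H.subtype 𝒰) y)
    (hy : (d₁₂ (Rep.res H.subtype A)).hom y = sh₂ H F) :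
    ∃ z : G → G ⧸ H → A, IsLC₁ 𝒰 z ∧ (d₁₂ (Ind H A)).hom z = F := by
  exact shapiro_inj₂ (permQ H) (fun _ : Unit => baseQ H) (fun _ => H) h𝒰
    (exists_level_permQ_eq_one H h𝒰 hopen) (quot_hH H) (quot_hcov H) F hF hFL
    (fun _ => ⟨y, hyL, hy⟩)

theorem sh₂_surj [Finite (G ⧸ H)] (h𝒰 : LevelSys 𝒰) (hopen : ∃ U ∈ 𝒰, U ≤ H)
    (ψ : H × H → A) (hψ : ψ ∈ cocycles₂ (Rep.res H.subtype A))
    (hψL : IsLC₂ (comapLev H.subtype 𝒰) ψ) :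
    ∃ F : G × G → G ⧸ H → A, F ∈ cocycles₂ (Ind H A) ∧ IsLC₂ 𝒰 F ∧ sh₂ H F = ψ := by
  obtain ⟨F, h1, h2, h3⟩ := shapiro_surj₂ (permQ H) (fun _ : Unit => baseQ H) (fun _ => H) h𝒰
    (exists_level_permQ_eq_one H h𝒰 hopen) (quot_hH H) (quot_hcov H) (fun _ _ _ _ => rfl)
    (fun _ => ψ) (fun _ => hψ) (fun _ => hψL)
  exact ⟨F, h1, h2, congrFun h3 ()⟩

/-! ### places -/

/-- degree 0: an invariant of `Γ` in `Map(G/H, A)` comes from an invariant of `G` iff its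
"values at the places", transported to the base point, all agree and are `H`-invariant. -/
theorem sh₀_loc (φ : G ⧸ H → A) :
    (∀ g, (Ind H A).ρ g φ = φ) ↔
      ∃ c : A, (∀ h ∈ H, A.ρ h c = c) ∧ ∀ γ : G, A.ρ γ (φ ((γ⁻¹ : G) : G ⧸ H)) = c := by
  constructor
  · intro hφ
    refine ⟨sh₀ H φ, sh₀_mem_invariants H φ hφ, fun γ => ?_⟩
    have h1 := congrFun (hφ γ) (baseQ H)
    rw [Ind_ρ_apply] at h1
    have h2 : γ⁻¹ • baseQ H = ((γ⁻¹ : G) : G ⧸ H) := by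
      have : γ⁻¹ • baseQ H = ((γ⁻¹ * 1 : G) : G ⧸ H) := rfl
      rw [this, mul_one]
    rw [h2] at h1
    exact h1
  · rintro ⟨c, -, hc⟩ g
    have key : ∀ x : G, φ (x : G ⧸ H) = A.ρ x c := by
      intro x
      have h1 := hc x⁻¹
      rw [inv_inv] at h1
      rw [← h1, ← Module.End.mul_apply, ← map_mul, mul_inv_cancel, map_one, Module.End.one_apply]
    funext x
    induction x using QuotientGroup.induction_on with
    | H x =>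
      rw [Ind_ρ_apply]
      have h2 : g⁻¹ • (x : G ⧸ H) = ((g⁻¹ * x : G) : G ⧸ H) := rfl
      rw [h2, key, key, ← Module.End.mul_apply, ← map_mul, mul_inv_cancel_left]

theorem sh₁_loc_trivial_iff (r : Γ →* G)
    (f : G → G ⧸ H → A) (hf : f ∈ cocycles₁ (Ind H A)) :
    (∃ φ : G ⧸ H → A, (d₀₁ (Rep.res r (Ind H A))).hom φ = pull₁ r f) ↔
      ∀ γ : G, ∃ c : A, ∀ δ : placeSub r γ H,
        sh₁ H f ⟨conjHom r γ δ, δ.2⟩ = A.ρ (conjHom r γ δ) c - c := by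
  rw [loc_trivial_iff₁ (permQ H) r H (baseQ H) (mem_iff_permQ_baseQ H) (permQ_trans H) f hf]
  refine forall_congr' fun γ => exists_congr fun c => ?_
  exact ⟨fun h δ => h δ.1 δ.2, fun h δ hδ => h ⟨δ, hδ⟩⟩

theorem sh₂_loc_trivial_iff [Finite (G ⧸ H)] (h𝒰 : LevelSys 𝒰) (hopen : ∃ U ∈ 𝒰, U ≤ H)
    (r : Γ →* G)
    (F : G × G → G ⧸ H → A) (hF : F ∈ cocycles₂ (Ind H A)) (hFL : IsLC₂ 𝒰 F) :
    (∃ z : Γ → G ⧸ H → A, IsLC₁ (comapLev r 𝒰) z ∧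
        (d₁₂ (Rep.res r (Ind H A))).hom z = pull₂ r F) ↔
      ∀ γ : G, ∃ y : placeSub r γ H → A,
        IsLC₁ (comapLev (r.comp (placeSub r γ H).subtype) 𝒰) y ∧
        ∀ δ₁ δ₂ : placeSub r γ H,
          sh₂ H F (⟨conjHom r γ δ₁, δ₁.2⟩, ⟨conjHom r γ δ₂, δ₂.2⟩) =
            A.ρ (conjHom r γ δ₁) (y δ₂) - y (δ₁ * δ₂) + y δ₁ := by
  exact loc_trivial_iff₂ (permQ H) h𝒰 (exists_level_permQ_eq_one H h𝒰 hopen) r H (baseQ H)
    (mem_iff_permQ_baseQ H) (permQ_trans H) F hF hFL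

end Fermat.Agent.S55.SH
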